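import Fermat.Agent.S44.Loc.At

/-!
# S44 / Loc / At2 : the FINAL user interface: `locNodeAt'`, `rcAt'`, `locSmoothAt'` with hypotheses that are LOCAL AT `n`.

In the application `S' = M[z]` is not normal outside a neighbourhood of `n`, so `InR`, `InvK`, `Normal`, `XData` are replaced by
* `InRAt n π z`    : `∃ s ∉ n, ∃ j o, ι s * (ι π ^ j * z) = ι o`      (`z ∈ S_n[1/π]`);
* `InvKAt n π m W` : `InvK` with `InRAt`;
* `NormalAt F n π` : `z` integral over `S` ⟹ `InRAt n π z`           (⟺ `S_n[1/π]` integrally closed);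
* `XDataAt`        : `XData` with `InRAt`.
The global predicates imply the local ones (`InR.at`, `InvK.at`, `Normal.at`, `XData.at`).

TASK  S44/Loc-At2 (8 small lemmas; same style as section Transport of `At.lean`).
-/

set_option autoImplicit false

namespace Fermat.Agent.S44.Loc

variable {S : Type*} [CommRing S] {F : Type*} [Field F] [Algebra S F]

/-- `z ∈ S_n[1/π]`. -/
def InRAt (n : Ideal S) (π : S) (z : F) : Prop :=
  ∃ (s : S) (j : ℕ) (o : S), s ∉ n ∧ algebraMap S F s * (algebraMap S F π ^ j * z) = algebraMap S F o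

/-- `InvK` for `S_n`. -/
def InvKAt (n : Ideal S) (π : S) (m : ℕ) (W : F) : Prop :=
  ∃ (r : ℕ) (a b : Fin r → F), (∀ i, InRAt n π (a i ^ m * W)) ∧ (∀ i, InRAt n π (b i ^ m * W⁻¹)) ∧
    ∑ i, a i * b i = 1

/-- `S_n[1/π]` is integrally closed. -/
def NormalAt (F : Type*) [Field F] [Algebra S F] (n : Ideal S) (π : S) : Prop :=
  ∀ z : F, IsIntegral S z → InRAt n π z

/-- `XData` for `S_n`. -/
structure XDataAt (F : Type*) [Field F] [Algebra S F] (n : Ideal S) (π : S) (Q1 Q2 : Ideal S) (X : S)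
    (T : ℕ) : Prop where
  pos : 0 < T
  notMem1 : X ∉ Q1
  v2 : VEq Q2 π (T : ℤ) (algebraMap S F X)
  inv : InRAt n π (algebraMap S F X)⁻¹

variable {n : Ideal S} {π : S} {z W : F} {m : ℕ}

/-! ### TASK S44/Loc-At2 -/

theorem InR.at (hn : n ≠ ⊤) (h : InR π z) : InRAt n π z := by
  obtain ⟨j, o, e⟩ := h
  exact ⟨1, j, o, (Ideal.ne_top_iff_one n).mp hn, by rw [map_one, one_mul, e]⟩

theorem InvK.at (hn : n ≠ ⊤) (h : InvK π m W) : InvKAt n π m W := by
  obtain ⟨r, a, b, ha, hb, hsum⟩ := h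
  exact ⟨r, a, b, fun i => InR.at hn (ha i), fun i => InR.at hn (hb i), hsum⟩

theorem Normal.at (hn : n ≠ ⊤) (h : Normal F π) : NormalAt F n π := by
  intro z hz
  exact InR.at hn (h z hz)

theorem XData.at {Q1 Q2 : Ideal S} {X : S} {T : ℕ} (hn : n ≠ ⊤) (h : XData F π Q1 Q2 X T) :
    XDataAt F n π Q1 Q2 X T := by
  exact ⟨h.pos, h.notMem1, h.v2, InR.at hn h.inv⟩

section Transport2

variable (O : Type*) [CommRing O] [Algebra S O] [Algebra O F] [IsScalarTower S O F]
  [n.IsPrime] [IsLocalization.AtPrime O n]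

/-- `π ^ j * z = ι_O (mk' o s)`. -/
theorem InRAt.toLoc (h : InRAt n π z) : InR (algebraMap S O π) z := by
  obtain ⟨s, j, o, hs, e⟩ := h
  refine ⟨j, IsLocalization.mk' O o (⟨s, hs⟩ : n.primeCompl), ?_⟩
  have hu : IsUnit (algebraMap S F s) := by
    rw [IsScalarTower.algebraMap_apply S O F]
    exact (IsLocalization.map_units O (⟨s, hs⟩ : n.primeCompl)).map (algebraMap O F)
  have h1 : algebraMap O F (IsLocalization.mk' O o (⟨s, hs⟩ : n.primeCompl)) * algebraMap S F s =
      algebraMap S F o := by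
    have h2 := IsLocalization.mk'_spec O o (⟨s, hs⟩ : n.primeCompl)
    rw [IsScalarTower.algebraMap_apply S O F, ← map_mul, h2, ← IsScalarTower.algebraMap_apply]
  rw [← IsScalarTower.algebraMap_apply]
  apply hu.mul_right_cancel
  rw [h1, ← e]
  ring

theorem InvKAt.toLoc (h : InvKAt n π m W) : InvK (algebraMap S O π) m W := by
  obtain ⟨r, a, b, ha, hb, hsum⟩ := h
  exact ⟨r, a, b, fun i => InRAt.toLoc O (ha i), fun i => InRAt.toLoc O (hb i), hsum⟩

/-- as `Normal.toLoc`. -/
theorem NormalAt.toLoc (h : NormalAt F n π) : Normal (O := O) F (algebraMap S O π) := by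
  intro z hz
  obtain ⟨s, hs⟩ := IsIntegral.exists_multiple_integral_of_isLocalization n.primeCompl z hz
  obtain ⟨j, o, e⟩ := InRAt.toLoc O (h _ hs)
  have hsz : s • z = algebraMap O F (algebraMap S O (s : S)) * z := by
    rw [Submonoid.smul_def, Algebra.smul_def, IsScalarTower.algebraMap_apply S O F]
  rw [hsz] at e
  obtain ⟨u, hu⟩ := IsLocalization.map_units O s
  refine ⟨j, (↑u⁻¹ : O) * o, ?_⟩
  have h3 : algebraMap O F (↑u⁻¹ : O) * algebraMap O F (algebraMap S O (s : S)) = 1 := by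
    rw [← map_mul, ← hu, Units.inv_mul, map_one]
  rw [map_mul, ← e]
  linear_combination (-(algebraMap O F (algebraMap S O π) ^ j * z)) * h3

theorem XDataAt.toLoc {Q1 Q2 : Ideal S} {X : S} {T : ℕ} (h1 : Q1.IsPrime) (hle1 : Q1 ≤ n)
    (h2 : Q2.IsPrime) (hle2 : Q2 ≤ n) (h : XDataAt F n π Q1 Q2 X T) :
    XData F (algebraMap S O π) (Q1.map (algebraMap S O)) (Q2.map (algebraMap S O))
      (algebraMap S O X) T := by
  refine ⟨h.pos, notMem_map_of_notMem O h1 hle1 h.notMem1, ?_, ?_⟩
  · rw [← IsScalarTower.algebraMap_apply]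
    exact h.v2.toLoc O h2 hle2
  · rw [← IsScalarTower.algebraMap_apply]
    exact h.inv.toLoc O

end Transport2

section Main2

variable [IsDomain S] [IsNoetherianRing S] [IsFractionRing S F] {Q1 Q2 Q : Ideal S}

/-- **LocNode at a maximal ideal, local hypotheses.** -/
theorem locNodeAt' (h : NodeAt n π Q1 Q2) (hn : NormalAt F n π) (hm : 0 < m) {X : S} {T : ℕ}
    (hX : XDataAt F n π Q1 Q2 X T) (hmT : Nat.Coprime m T) (hW1 : VEq Q1 π 0 W)
    (hW2 : VEq Q2 π 0 W) (hinv : InvKAt n π m W) :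
    ∃ (y : F) (s t : S), y ≠ 0 ∧ s ∉ n ∧ t ∉ n ∧
      algebraMap S F s * (y ^ m * W) = algebraMap S F t := by
  haveI := h.max
  haveI : n.IsPrime := h.max.isPrime
  have hS : n.primeCompl ≤ nonZeroDivisors S := n.primeCompl_le_nonZeroDivisors
  let O := Localization.subalgebra.ofField F n.primeCompl hS
  haveI : IsLocalization.AtPrime O n := Localization.subalgebra.isLocalization_ofField F _ hS
  haveI : IsFractionRing O F := Localization.subalgebra.isFractionRing_ofField F _ hS
  haveI : IsLocalRing O := IsLocalization.AtPrime.isLocalRing O n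
  haveI : IsNoetherianRing O := IsLocalization.isNoetherianRing n.primeCompl O inferInstance
  obtain ⟨y, e, hy, he⟩ := locNode (h.node O) (hn.toLoc O) hm
    (hX.toLoc O h.prime1 h.le1 h.prime2 h.le2) hmT (hW1.toLoc O h.prime1 h.le1)
    (hW2.toLoc O h.prime2 h.le2) (hinv.toLoc O)
  obtain ⟨s, t, hs, ht, hst⟩ := exists_of_unit (F := F) O (n := n) e
  exact ⟨y, s, t, hy, hs, ht, by rw [he, hst]⟩

/-- **(RC) at a maximal ideal, local hypotheses.** -/
theorem rcAt' (h : NodeAt n π Q1 Q2) (hn : NormalAt F n π) (hm : 0 < m) {X : S} {T : ℕ}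
    (hX : XDataAt F n π Q1 Q2 X T) (hmT : Nat.Coprime m T) {u : F} {A B : ℤ}
    (hu1 : VEq Q1 π A u) (hu2 : VEq Q2 π B u) (hinv : InvKAt n π m u) :
    ∃ (y : F) (s t : S), VEq Q1 π 0 y ∧ VEq Q2 π 0 y ∧ s ∉ n ∧ t ∉ n ∧
      algebraMap S F s *
        (y ^ m * (u ^ T * algebraMap S F X ^ (A - B) * algebraMap S F π ^ (-(T * A))))
        = algebraMap S F t := by
  haveI := h.max
  haveI : n.IsPrime := h.max.isPrime
  have hS : n.primeCompl ≤ nonZeroDivisors S := n.primeCompl_le_nonZeroDivisors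
  let O := Localization.subalgebra.ofField F n.primeCompl hS
  haveI : IsLocalization.AtPrime O n := Localization.subalgebra.isLocalization_ofField F _ hS
  haveI : IsFractionRing O F := Localization.subalgebra.isFractionRing_ofField F _ hS
  haveI : IsLocalRing O := IsLocalization.AtPrime.isLocalRing O n
  haveI : IsNoetherianRing O := IsLocalization.isNoetherianRing n.primeCompl O inferInstance
  obtain ⟨y, e, hy1, hy2, he⟩ := rc (h.node O) (hn.toLoc O) hm
    (hX.toLoc O h.prime1 h.le1 h.prime2 h.le2) hmT (hu1.toLoc O h.prime1 h.le1)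
    (hu2.toLoc O h.prime2 h.le2) (hinv.toLoc O)
  obtain ⟨s, t, hs, ht, hst⟩ := exists_of_unit (F := F) O (n := n) e
  refine ⟨y, s, t, hy1.ofLoc O h.prime1 h.le1, hy2.ofLoc O h.prime2 h.le2, hs, ht, ?_⟩
  rw [← hst, ← he, ← IsScalarTower.algebraMap_apply S O F, ← IsScalarTower.algebraMap_apply S O F]

/-- **LocSmooth at a maximal ideal, local hypotheses.** -/
theorem locSmoothAt' (h : SmoothAt n π Q) (hn : NormalAt F n π) (hm : 0 < m) (hW1 : VEq Q π 0 W)
    (hinv : InvKAt n π m W) :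
    ∃ (y : F) (s t : S), VEq Q π 0 y ∧ s ∉ n ∧ t ∉ n ∧
      algebraMap S F s * (y ^ m * W) = algebraMap S F t := by
  haveI := h.max
  haveI : n.IsPrime := h.max.isPrime
  have hS : n.primeCompl ≤ nonZeroDivisors S := n.primeCompl_le_nonZeroDivisors
  let O := Localization.subalgebra.ofField F n.primeCompl hS
  haveI : IsLocalization.AtPrime O n := Localization.subalgebra.isLocalization_ofField F _ hS
  haveI : IsFractionRing O F := Localization.subalgebra.isFractionRing_ofField F _ hS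
  haveI : IsLocalRing O := IsLocalization.AtPrime.isLocalRing O n
  haveI : IsNoetherianRing O := IsLocalization.isNoetherianRing n.primeCompl O inferInstance
  have hW1' := hW1.toLoc O h.prime h.le
  have hW1'' := hW1'
  rw [h.map_eq O] at hW1''
  obtain ⟨y, e, hy, he⟩ := locSmooth (h.smooth O) (hn.toLoc O) hm hW1'' (hinv.toLoc O)
  obtain ⟨s, t, hs, ht, hst⟩ := exists_of_unit (F := F) O (n := n) e
  have hy0 := vEq_zero_of_pow_mul (h.smooth O).locPrin hm hW1'' hy he
  rw [← h.map_eq O] at hy0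
  exact ⟨y, s, t, hy0.ofLoc O h.prime h.le, hs, ht, by rw [he, hst]⟩

end Main2

end Fermat.Agent.S44.Loc
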