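import Fermat.Agent.S44.Loc.Etale
import Fermat.Agent.S44.Loc.At2

/-!
# S44 / Loc / EtaleNormal : `S'_{n'}[1/π]` is integrally closed.      TASK S44/Loc-EtN

`S` an INTEGRALLY CLOSED domain, `F = Frac S`, `S' = S[z]` (`pb : PowerBasis S S'`), `F' ⊇ F` separable with a power basis `B`, `B.gen = z`.
`G = minpoly S z`.  Hypothesis `hder`: `G'(z) * w = π ^ j * s` with `w ∈ S'`, `s ∈ S \ n`.   THEN `NormalAt F' (up pb n a _) π`.

PROOF.  `x : F'` integral over `S'`, hence over `S` (`isIntegral_trans`, `S'` is finite over `S`: `pb.finite`).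
(1) `Algebra.discr_mul_isIntegral_mem_adjoin` (`R := S`, `K := F`, `L := F'`, `B`): `discr F B.basis • x ∈ Algebra.adjoin S {B.gen}`; every element of
    `adjoin S {algebraMap z}` is `algebraMap S' F' y` (`Algebra.adjoin_singleton_eq_range_aeval`, `aeval_algebraMap_apply`).
(2) `Algebra.discr_powerBasis_eq_norm` : `discr F B.basis = ± norm F (aeval B.gen (derivative (minpoly F B.gen)))`;
    `minpoly F B.gen = (minpoly S z).map (algebraMap S F)` (`minpoly.isIntegrallyClosed_eq_field_fractions`), so
    `aeval B.gen (derivative (minpoly F B.gen)) = algebraMap S' F' (G'(z))`.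
(3) norms: `norm F (ι' (G'(z))) * norm F (ι' w) = norm F (algebraMap (π ^ j * s)) = (π ^ j * s) ^ d`, `d = finrank` (`Algebra.norm_algebraMap`);
    `norm F (ι' w)` is integral over `S` (`Algebra.isIntegral_norm`), so it is `ι e`, `e : S` (`IsIntegrallyClosed.isIntegral_iff`).
(4) `(π ^ j * s) ^ d * x = ± ι e * (discr • x) = ι' (± e • y)`.   So `InRAt` with `s := algebraMap (s ^ d) ∉ up n a` (`algebraMap_mem_up_iff`, `n` prime), exponent `j * d`.
-/

set_option autoImplicit false

open Polynomial

namespace Fermat.Agent.S44.Loc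

theorem normalAt_up {S S' : Type*} [CommRing S] [IsDomain S] [IsIntegrallyClosed S] [CommRing S']
    [IsDomain S'] [Algebra S S'] (pb : PowerBasis S S') {F F' : Type*} [Field F] [Field F']
    [Algebra S F] [IsFractionRing S F] [Algebra S' F'] [IsFractionRing S' F'] [Algebra S F'] [Algebra F F']
    [IsScalarTower S F F'] [IsScalarTower S S' F'] [Algebra.IsSeparable F F']
    (B : PowerBasis F F') (hB : B.gen = algebraMap S' F' pb.gen)
    {n : Ideal S} (hn : n.IsPrime) {π a : S} (ha : (minpoly S pb.gen).eval a ∈ n)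
    (hder : ∃ (w : S') (j : ℕ) (s : S), s ∉ n ∧
      aeval pb.gen (derivative (minpoly S pb.gen)) * w = algebraMap S S' (π ^ j * s)) :
    NormalAt F' (up pb n a ha) (algebraMap S S' π) := by
  obtain ⟨w, j, s, hs, hw⟩ := hder
  intro x hx
  have hfin : Module.Finite S S' := pb.finite
  have hfinF : Module.Finite F F' := B.finite
  have hint' : Algebra.IsIntegral S S' := Algebra.IsIntegral.of_finite S S'
  have hxS : IsIntegral S x := isIntegral_trans x hx
  have hzS : IsIntegral S pb.gen := Algebra.IsIntegral.isIntegral _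
  have hBint : IsIntegral S B.gen := by
    rw [hB]; exact hzS.algebraMap
  -- (1)
  have h1 := Algebra.discr_mul_isIntegral_mem_adjoin (R := S) (K := F) (L := F') (B := B) hBint hxS
  obtain ⟨y, hy⟩ : ∃ y : S', algebraMap S' F' y = Algebra.discr F B.basis • x := by
    rw [Algebra.adjoin_singleton_eq_range_aeval] at h1
    obtain ⟨P, hP⟩ := h1
    refine ⟨aeval pb.gen P, ?_⟩
    rw [← hP, hB]
    exact (aeval_algebraMap_apply F' pb.gen P).symm
  -- (2)
  have hmin : minpoly F B.gen = (minpoly S pb.gen).map (algebraMap S F) := by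
    rw [hB]; exact minpoly.isIntegrallyClosed_eq_field_fractions F F' hzS
  have hderiv : aeval B.gen (derivative (minpoly F B.gen))
      = algebraMap S' F' (aeval pb.gen (derivative (minpoly S pb.gen))) := by
    rw [hmin, derivative_map, aeval_map_algebraMap, hB, aeval_algebraMap_apply]
  have h2 := Algebra.discr_powerBasis_eq_norm F B
  rw [hderiv] at h2
  -- (3)
  have hwint : IsIntegral S (Algebra.norm F (algebraMap S' F' w)) :=
    Algebra.isIntegral_norm F ((Algebra.IsIntegral.isIntegral (R := S) w).algebraMap)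
  obtain ⟨e, he⟩ := IsIntegrallyClosed.isIntegral_iff.1 hwint
  have h3 : Algebra.norm F (algebraMap S' F' (aeval pb.gen (derivative (minpoly S pb.gen))))
      * Algebra.norm F (algebraMap S' F' w)
      = algebraMap S F ((π ^ j * s) ^ Module.finrank F F') := by
    rw [← map_mul, ← map_mul, hw, ← IsScalarTower.algebraMap_apply S S' F',
      IsScalarTower.algebraMap_apply S F F', Algebra.norm_algebraMap, map_pow]
  -- (4)
  set d := Module.finrank F F' with hd
  set ε : S := (-1) ^ (d * (d - 1) / 2) with hε
  have hεε : ε * ε = 1 := by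
    rw [hε, ← mul_pow]; simp
  refine ⟨algebraMap S S' (s ^ d), j * d, algebraMap S S' (ε * e) * y, ?_, ?_⟩
  · rw [algebraMap_mem_up_iff]
    exact fun h => hs (hn.mem_of_pow_mem _ h)
  · have hdisc : Algebra.discr F B.basis * algebraMap S F (ε * e)
        = algebraMap S F ((π ^ j * s) ^ d) := by
      rw [← h3, h2, ← he, map_mul]
      have : algebraMap S F ε = (-1) ^ (d * (d - 1) / 2) := by simp [hε]
      have h' : algebraMap S F ε * algebraMap S F ε = 1 := by rw [← map_mul, hεε, map_one]
      rw [← this]
      linear_combination (Algebra.norm F (algebraMap S' F' (aeval pb.gen (derivative (minpoly S pb.gen))))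
        * algebraMap S F e) * h'
    rw [map_mul, hy, ← IsScalarTower.algebraMap_apply S S' F', ← IsScalarTower.algebraMap_apply S S' F',
      ← IsScalarTower.algebraMap_apply S S' F', Algebra.smul_def,
      IsScalarTower.algebraMap_apply S F F' (ε * e)]
    have h5 := congrArg (algebraMap F F') hdisc
    rw [map_mul, ← IsScalarTower.algebraMap_apply S F F' ((π ^ j * s) ^ d)] at h5
    have h6 : algebraMap S F' ((π ^ j * s) ^ d)
        = algebraMap S F' (s ^ d) * algebraMap S F' π ^ (j * d) := by
      rw [← map_pow, ← map_mul]; congr 1; ring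
    rw [h6] at h5
    linear_combination (-x) * h5

/-- convenience: elements integral over `S'` after multiplication by a power of `π`. -/
theorem InRAt.of_isIntegral {S : Type*} [CommRing S] {F : Type*} [Field F] [Algebra S F]
    {n : Ideal S} {π : S} (hn : NormalAt F n π) {z : F} {j : ℕ}
    (hz : IsIntegral S (algebraMap S F π ^ j * z)) : InRAt n π z := by
  obtain ⟨s, i, o, hs, h⟩ := hn _ hz
  exact ⟨s, i + j, o, hs, by rw [← h, pow_add]; ring⟩

end Fermat.Agent.S44.Loc
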