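import Fermat.Agent.S44.Loc.RC

/-!
# S44 / Loc / At : LocNode / LocSmooth / RC **at a maximal ideal of a NON-LOCAL noetherian domain** (no localisation for the user).

`S` a noetherian domain, `F = Frac S`, `n` a maximal ideal.  `NodeAt n π Q1 Q2` / `SmoothAt n π Q` = the hypotheses of `Node` / `Smooth` for `S_n`,
written elementwise in `S` (`∃ s ∉ n, …`).  The predicates `VGe`, `VEq`, `InR`, `IsK`, `InvK`, `Normal`, `XData` are the ones of `Val.lean`, `Node.lean`, `Prin.lean`,
taken FOR THE RING `S` ITSELF (they never mention `n`).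

MAIN RESULTS  `locNodeAt`, `rcAt`, `locSmoothAt` :  conclusion `∃ y ≠ 0, ∃ s t ∉ n, ι s * (y ^ m * W) = ι t`.

METHOD.  `O` any model of `S_n` inside `F` (`[IsLocalization.AtPrime O n] [Algebra O F] [IsScalarTower S O F] [IsFractionRing O F]`); transport everything to `O`
(section `Transport`), apply `locNode`, come back.  At the end `O := Localization.subalgebra.ofField F n.primeCompl _`.

TASKS  S44/Loc-AtT (section Transport: 9 small lemmas), S44/Loc-AtN1 (`NodeAt.node` fields prime/ne_zero/not_le/val), S44/Loc-AtN2 (`inf_eq`, `sup_eq`),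
       S44/Loc-AtS (`SmoothAt.smooth`), S44/Loc-AtB (`exists_of_unit`, instances for `ofField`).
-/

set_option autoImplicit false

namespace Fermat.Agent.S44.Loc

variable {S : Type*} [CommRing S]

/-- `S_n` is the local ring of a node with branches `Q1`, `Q2`. -/
structure NodeAt (n : Ideal S) (π : S) (Q1 Q2 : Ideal S) : Prop where
  max : n.IsMaximal
  prime1 : Q1.IsPrime
  prime2 : Q2.IsPrime
  le1 : Q1 ≤ n
  le2 : Q2 ≤ n
  ne_zero : π ≠ 0
  mem1 : π ∈ Q1
  mem2 : π ∈ Q2
  inf : ∀ x ∈ Q1, x ∈ Q2 → ∃ s, s ∉ n ∧ π ∣ s * x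
  sup : ∀ x ∈ n, ∃ s, s ∉ n ∧ s * x ∈ Q1 ⊔ Q2
  not_le12 : ¬ Q1 ≤ Q2
  not_le21 : ¬ Q2 ≤ Q1
  val1 : ∀ a b : S, ∃ s r, s ∉ n ∧ (s * a - r * b ∈ Q1 ∨ s * b - r * a ∈ Q1)
  val2 : ∀ a b : S, ∃ s r, s ∉ n ∧ (s * a - r * b ∈ Q2 ∨ s * b - r * a ∈ Q2)

/-- `S_n` is the local ring of a smooth point of the special fibre, `Q` the component through it. -/
structure SmoothAt (n : Ideal S) (π : S) (Q : Ideal S) : Prop where
  max : n.IsMaximal
  prime : Q.IsPrime
  le : Q ≤ n
  ne_zero : π ≠ 0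
  mem : π ∈ Q
  gen : ∀ x ∈ Q, ∃ s, s ∉ n ∧ π ∣ s * x
  val : ∀ a b : S, ∃ s r, s ∉ n ∧ (s * a - r * b ∈ Q ∨ s * b - r * a ∈ Q)

section Transport

variable {F : Type*} [Field F] [Algebra S F]
  (O : Type*) [CommRing O] [Algebra S O] [Algebra O F] [IsScalarTower S O F]
  {n : Ideal S} [n.IsPrime] [IsLocalization.AtPrime O n]
  {π : S} {Q : Ideal S} {k : ℤ} {z W : F} {m : ℕ}

/-! ### TASK S44/Loc-AtT
`algebraMap O F (algebraMap S O s) = algebraMap S F s` is `(IsScalarTower.algebraMap_apply S O F s).symm`. -/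

/-- `IsLocalization.comap_map_of_isPrime_disjoint` (`Q` prime, `Q ≤ n`). -/
theorem notMem_map_of_notMem (hQ : Q.IsPrime) (hle : Q ≤ n) {s : S} (hs : s ∉ Q) :
    algebraMap S O s ∉ Q.map (algebraMap S O) := by
  intro h
  have hdisj : Disjoint (n.primeCompl : Set S) (Q : Set S) := by
    rw [Set.disjoint_left]
    intro x hx hxQ
    exact hx (hle hxQ)
  have h1 := IsLocalization.comap_map_of_isPrime_disjoint n.primeCompl O hQ hdisj
  apply hs
  rw [← h1]
  exact Ideal.mem_comap.2 h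

theorem VGe.toLoc (hQ : Q.IsPrime) (hle : Q ≤ n) (h : VGe Q π k z) :
    VGe (Q.map (algebraMap S O)) (algebraMap S O π) k z := by
  obtain ⟨s, o, hs, e⟩ := h
  refine ⟨algebraMap S O s, algebraMap S O o, notMem_map_of_notMem O hQ hle hs, ?_⟩
  rw [← IsScalarTower.algebraMap_apply, ← IsScalarTower.algebraMap_apply,
    ← IsScalarTower.algebraMap_apply]
  exact e

theorem VEq.toLoc (hQ : Q.IsPrime) (hle : Q ≤ n) (h : VEq Q π k z) :
    VEq (Q.map (algebraMap S O)) (algebraMap S O π) k z := by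
  obtain ⟨s, o, hs, ho, e⟩ := h
  refine ⟨algebraMap S O s, algebraMap S O o, notMem_map_of_notMem O hQ hle hs,
    notMem_map_of_notMem O hQ hle ho, ?_⟩
  rw [← IsScalarTower.algebraMap_apply, ← IsScalarTower.algebraMap_apply,
    ← IsScalarTower.algebraMap_apply]
  exact e

omit [n.IsPrime] [IsLocalization.AtPrime O n] in
theorem InR.toLoc (h : InR π z) : InR (algebraMap S O π) z := by
  obtain ⟨j, o, e⟩ := h
  refine ⟨j, algebraMap S O o, ?_⟩
  rw [← IsScalarTower.algebraMap_apply, ← IsScalarTower.algebraMap_apply]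
  exact e

omit [n.IsPrime] [IsLocalization.AtPrime O n] in
theorem InvK.toLoc (h : InvK π m W) : InvK (algebraMap S O π) m W := by
  obtain ⟨r, a, b, ha, hb, hsum⟩ := h
  exact ⟨r, a, b, fun i => InR.toLoc O (ha i), fun i => InR.toLoc O (hb i), hsum⟩

include n in
/-- `z` integral over `O` ⟹ `s • z` integral over `S` for some `s ∉ n` (`IsIntegral.exists_multiple_integral_of_isLocalization n.primeCompl`)
⟹ `π ^ j * (s z) = ι o` ⟹ `π ^ j * z = ι_O (mk' o s)`. -/
theorem Normal.toLoc (h : Normal F π) : Normal (O := O) F (algebraMap S O π) := by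
  intro z hz
  obtain ⟨s, hs⟩ := IsIntegral.exists_multiple_integral_of_isLocalization n.primeCompl z hz
  obtain ⟨j, o, e⟩ := h _ hs
  have hsz : s • z = algebraMap S F (s : S) * z := by
    rw [Submonoid.smul_def, Algebra.smul_def]
  rw [hsz] at e
  have hu : IsUnit (algebraMap S F (s : S)) := by
    rw [IsScalarTower.algebraMap_apply S O F]
    exact (IsLocalization.map_units O s).map (algebraMap O F)
  have h1 : algebraMap O F (IsLocalization.mk' O o s) * algebraMap S F (s : S) =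
      algebraMap S F o := by
    rw [IsScalarTower.algebraMap_apply S O F, ← map_mul, IsLocalization.mk'_spec,
      ← IsScalarTower.algebraMap_apply]
  refine ⟨j, IsLocalization.mk' O o s, ?_⟩
  rw [← IsScalarTower.algebraMap_apply]
  apply hu.mul_right_cancel
  rw [h1, ← e]
  ring

theorem XData.toLoc {Q1 Q2 : Ideal S} {X : S} {T : ℕ} (h1 : Q1.IsPrime) (hle1 : Q1 ≤ n)
    (h2 : Q2.IsPrime) (hle2 : Q2 ≤ n) (h : XData F π Q1 Q2 X T) :
    XData F (algebraMap S O π) (Q1.map (algebraMap S O)) (Q2.map (algebraMap S O))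
      (algebraMap S O X) T := by
  refine ⟨h.pos, notMem_map_of_notMem O h1 hle1 h.notMem1, ?_, ?_⟩
  · rw [← IsScalarTower.algebraMap_apply]
    exact h.v2.toLoc O h2 hle2
  · rw [← IsScalarTower.algebraMap_apply]
    exact h.inv.toLoc O

/-- a unit `e` of `O` is `t / s` with `s, t ∉ n` (`IsLocalization.mk'_surjective`, `IsLocalization.AtPrime.isUnit_mk'_iff`). -/
theorem exists_of_unit (e : Oˣ) :
    ∃ s t : S, s ∉ n ∧ t ∉ n ∧ algebraMap S F s * algebraMap O F (e : O) = algebraMap S F t := by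
  obtain ⟨t, s, hts⟩ := IsLocalization.exists_mk'_eq n.primeCompl (e : O)
  have ht : t ∈ n.primeCompl := by
    rw [← IsLocalization.AtPrime.isUnit_mk'_iff O n t s, hts]
    exact e.isUnit
  refine ⟨s, t, s.2, ht, ?_⟩
  rw [← hts, IsScalarTower.algebraMap_apply S O F, ← map_mul, mul_comm, IsLocalization.mk'_spec,
    ← IsScalarTower.algebraMap_apply]

/-- and back for valuations: `VEq` over `O` ⟹ `VEq` over `S`. -/
theorem VEq.ofLoc (hQ : Q.IsPrime) (hle : Q ≤ n)
    (h : VEq (Q.map (algebraMap S O)) (algebraMap S O π) k z) : VEq Q π k z := by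
  obtain ⟨s', o', hs', ho', e⟩ := h
  obtain ⟨a, u, rfl⟩ := IsLocalization.exists_mk'_eq n.primeCompl s'
  obtain ⟨b, v, rfl⟩ := IsLocalization.exists_mk'_eq n.primeCompl o'
  have hmem : ∀ (x : S) (w : n.primeCompl), IsLocalization.mk' O x w ∉ Q.map (algebraMap S O) →
      x ∉ Q := by
    intro x w hx hxQ
    apply hx
    rw [IsLocalization.mk'_mem_map_algebraMap_iff n.primeCompl]
    exact ⟨1, one_mem _, by rwa [one_mul]⟩
  have ha : a ∉ Q := hmem a u hs'
  have hb : b ∉ Q := hmem b v ho'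
  have hu : (u : S) ∉ Q := fun h => u.2 (hle h)
  have hv : (v : S) ∉ Q := fun h => v.2 (hle h)
  have h1 : ∀ (x : S) (w : n.primeCompl),
      algebraMap O F (IsLocalization.mk' O x w) * algebraMap S F (w : S) = algebraMap S F x := by
    intro x w
    rw [IsScalarTower.algebraMap_apply S O F, ← map_mul, IsLocalization.mk'_spec,
      ← IsScalarTower.algebraMap_apply]
  rw [← IsScalarTower.algebraMap_apply] at e
  refine ⟨a * v, b * u, fun h => (hQ.mem_or_mem h).elim ha hv,
    fun h => (hQ.mem_or_mem h).elim hb hu, ?_⟩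
  rw [map_mul, map_mul, ← h1 a u, ← h1 b v]
  linear_combination (algebraMap S F (u : S) * algebraMap S F (v : S)) * e

end Transport

section Structure

variable (O : Type*) [CommRing O] [Algebra S O] [IsLocalRing O]
  {n : Ideal S} [n.IsPrime] [IsLocalization.AtPrime O n] {π : S} {Q1 Q2 Q : Ideal S}

/-! ### TASKS S44/Loc-AtN1, S44/Loc-AtN2
Every element of `O` is `mk' a s`, `s ∉ n`, and `algebraMap s` is a unit.  `x ∈ Q.map ↔ ∃ a ∈ Q, ∃ s ∉ n, x = mk' a s` (`IsLocalization.mem_map_algebraMap_iff`).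
`maximalIdeal O = n.map` (`IsLocalization.AtPrime.map_eq_maximalIdeal`).  `Ideal.map_sup`.  Primes: `IsLocalization.isPrime_of_isPrime_disjoint`. -/

omit [IsLocalRing O] in
/-- (AtN) a prime `Q ≤ n` is disjoint from `n.primeCompl`. -/
theorem AtN_disjoint (hle : Q ≤ n) : Disjoint (n.primeCompl : Set S) (Q : Set S) :=
  Set.disjoint_left.2 fun _ hx hxQ => hx (hle hxQ)

omit [IsLocalRing O] in
/-- (AtN) `ι a ∈ Q O ↔ a ∈ Q`. -/
theorem AtN_mem_map_iff (hQ : Q.IsPrime) (hle : Q ≤ n) {a : S} :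
    algebraMap S O a ∈ Q.map (algebraMap S O) ↔ a ∈ Q := by
  have h := IsLocalization.under_map_of_isPrime_disjoint n.primeCompl O hQ (AtN_disjoint hle)
  constructor
  · intro ha
    rw [← h]
    exact ha
  · exact Ideal.mem_map_of_mem _

omit [IsLocalRing O] in
/-- (AtN) elements outside `n` become units. -/
theorem AtN_isUnit {s : S} (hs : s ∉ n) : IsUnit (algebraMap S O s) :=
  IsLocalization.map_units O (⟨s, hs⟩ : n.primeCompl)

theorem NodeAt.node_inf [IsDomain S] (h : NodeAt n π Q1 Q2) :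
    Q1.map (algebraMap S O) ⊓ Q2.map (algebraMap S O) = Ideal.span {algebraMap S O π} := by
  apply le_antisymm
  · rintro x ⟨hx1, hx2⟩
    obtain ⟨⟨a, s⟩, hxs⟩ := IsLocalization.surj n.primeCompl x
    simp only at hxs
    have ha1 : a ∈ Q1 := (AtN_mem_map_iff O h.prime1 h.le1).1 (by
      rw [← hxs]; exact Ideal.mul_mem_right _ _ hx1)
    have ha2 : a ∈ Q2 := (AtN_mem_map_iff O h.prime2 h.le2).1 (by
      rw [← hxs]; exact Ideal.mul_mem_right _ _ hx2)
    obtain ⟨s', hs', c, hc⟩ := h.inf a ha1 ha2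
    rw [Ideal.mem_span_singleton]
    have h1 : algebraMap S O π ∣ (algebraMap S O s' * algebraMap S O s) * x := by
      refine ⟨algebraMap S O c, ?_⟩
      have h2 := congrArg (algebraMap S O) hc
      rw [map_mul, map_mul, ← hxs] at h2
      linear_combination h2
    exact (((AtN_isUnit O hs').mul (AtN_isUnit O s.2)).dvd_mul_left).1 h1
  · rw [Ideal.span_singleton_le_iff_mem]
    exact ⟨Ideal.mem_map_of_mem _ h.mem1, Ideal.mem_map_of_mem _ h.mem2⟩

theorem NodeAt.node_sup (h : NodeAt n π Q1 Q2) :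
    Q1.map (algebraMap S O) ⊔ Q2.map (algebraMap S O) = IsLocalRing.maximalIdeal O := by
  rw [← Ideal.map_sup, ← IsLocalization.AtPrime.map_eq_maximalIdeal n O]
  apply le_antisymm
  · exact Ideal.map_mono (sup_le h.le1 h.le2)
  · rw [Ideal.map_le_iff_le_comap]
    intro x hx
    obtain ⟨s, hs, hsx⟩ := h.sup x hx
    rw [Ideal.mem_comap]
    have h1 := Ideal.mem_map_of_mem (algebraMap S O) hsx
    rw [map_mul] at h1
    exact (Ideal.unit_mul_mem_iff_mem _ (AtN_isUnit O hs)).1 h1

theorem NodeAt.node_val1 (h : NodeAt n π Q1 Q2) (a b : O) :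
    (∃ r, a - r * b ∈ Q1.map (algebraMap S O)) ∨ (∃ r, b - r * a ∈ Q1.map (algebraMap S O)) := by
  have key : ∀ (a b : O) (a' b' s r : S) (s₁ s₂ : n.primeCompl),
      a * algebraMap S O s₁ = algebraMap S O a' → b * algebraMap S O s₂ = algebraMap S O b' →
      s ∉ n → s * a' - r * b' ∈ Q1 → ∃ r, a - r * b ∈ Q1.map (algebraMap S O) := by
    intro a b a' b' s r s₁ s₂ ha hb hs hmem
    obtain ⟨u, hu⟩ := (AtN_isUnit O hs).mul (AtN_isUnit O s₁.2)
    refine ⟨(↑u⁻¹ : O) * (algebraMap S O r * algebraMap S O s₂), ?_⟩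
    have h1 := Ideal.mem_map_of_mem (algebraMap S O) hmem
    rw [map_sub, map_mul, map_mul, ← ha, ← hb] at h1
    have h2 : a - (↑u⁻¹ : O) * (algebraMap S O r * algebraMap S O s₂) * b =
        (↑u⁻¹ : O) * (algebraMap S O s * (a * algebraMap S O s₁) -
          algebraMap S O r * (b * algebraMap S O s₂)) := by
      have h3 : (↑u⁻¹ : O) * (algebraMap S O s * algebraMap S O s₁) = 1 := by
        rw [← hu]; exact u.inv_mul
      linear_combination (-a) * h3
    rw [h2]
    exact Ideal.mul_mem_left _ _ h1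
  obtain ⟨⟨a', s₁⟩, ha⟩ := IsLocalization.surj n.primeCompl a
  obtain ⟨⟨b', s₂⟩, hb⟩ := IsLocalization.surj n.primeCompl b
  simp only at ha hb
  obtain ⟨s, r, hs, h1 | h1⟩ := h.val1 a' b'
  · exact Or.inl (key a b a' b' s r s₁ s₂ ha hb hs h1)
  · exact Or.inr (key b a b' a' s r s₂ s₁ hb ha hs h1)

theorem NodeAt.symm (h : NodeAt n π Q1 Q2) : NodeAt n π Q2 Q1 where
  max := h.max
  prime1 := h.prime2
  prime2 := h.prime1
  le1 := h.le2
  le2 := h.le1
  ne_zero := h.ne_zero
  mem1 := h.mem2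
  mem2 := h.mem1
  inf := fun x h2 h1 => h.inf x h1 h2
  sup := fun x hx => by rw [sup_comm]; exact h.sup x hx
  not_le12 := h.not_le21
  not_le21 := h.not_le12
  val1 := h.val2
  val2 := h.val1

theorem NodeAt.node [IsDomain S] (h : NodeAt n π Q1 Q2) :
    Node (algebraMap S O π) (Q1.map (algebraMap S O)) (Q2.map (algebraMap S O)) where
  prime1 := IsLocalization.isPrime_of_isPrime_disjoint n.primeCompl O Q1 h.prime1
    (AtN_disjoint h.le1)
  prime2 := IsLocalization.isPrime_of_isPrime_disjoint n.primeCompl O Q2 h.prime2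
    (AtN_disjoint h.le2)
  ne_zero := by
    intro h0
    apply h.ne_zero
    apply IsLocalization.injective O n.primeCompl_le_nonZeroDivisors
    rw [h0, map_zero]
  inf_eq := h.node_inf O
  sup_eq := h.node_sup O
  not_le12 := fun hle => h.not_le12 fun x hx =>
    (AtN_mem_map_iff O h.prime2 h.le2).1 (hle (Ideal.mem_map_of_mem _ hx))
  not_le21 := fun hle => h.not_le21 fun x hx =>
    (AtN_mem_map_iff O h.prime1 h.le1).1 (hle (Ideal.mem_map_of_mem _ hx))
  val1 := h.node_val1 O
  val2 := h.symm.node_val1 O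

/-! ### TASK S44/Loc-AtS -/

theorem SmoothAt.map_eq (h : SmoothAt n π Q) :
    Q.map (algebraMap S O) = Ideal.span {algebraMap S O π} := by
  apply le_antisymm
  · rw [Ideal.map_le_iff_le_comap]
    intro x hx
    rw [Ideal.mem_comap, Ideal.mem_span_singleton]
    obtain ⟨s, hs, c, hc⟩ := h.gen x hx
    have hu : IsUnit (algebraMap S O s) := IsLocalization.map_units O (⟨s, hs⟩ : n.primeCompl)
    rw [← hu.dvd_mul_left, ← map_mul, hc, map_mul]
    exact dvd_mul_right _ _
  · rw [Ideal.span_le, Set.singleton_subset_iff]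
    exact Ideal.mem_map_of_mem _ h.mem

theorem SmoothAt.smooth [IsDomain S] (h : SmoothAt n π Q) : Smooth (algebraMap S O π) := by
  have hu : ∀ s : S, s ∉ n → IsUnit (algebraMap S O s) :=
    fun s hs => IsLocalization.map_units O (⟨s, hs⟩ : n.primeCompl)
  have hmem : ∀ x ∈ Q, algebraMap S O π ∣ algebraMap S O x := by
    intro x hx
    rw [← Ideal.mem_span_singleton, ← h.map_eq O]
    exact Ideal.mem_map_of_mem _ hx
  refine ⟨?_, ?_, ?_⟩
  · rw [← h.map_eq O]
    exact IsLocalization.isPrime_of_isPrime_disjoint n.primeCompl O Q h.prime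
      (Set.disjoint_left.2 fun x hx hxQ => hx (h.le hxQ))
  · intro h0
    exact h.ne_zero ((IsLocalization.injective O n.primeCompl_le_nonZeroDivisors)
      (h0.trans (map_zero _).symm))
  · have key : ∀ a b : O, ∀ a' b' s₁ s₂ : S, s₁ ∉ n → s₂ ∉ n →
        a * algebraMap S O s₁ = algebraMap S O a' → b * algebraMap S O s₂ = algebraMap S O b' →
        ∀ s r : S, s ∉ n → s * a' - r * b' ∈ Q → ∃ r', algebraMap S O π ∣ a - r' * b := by
      intro a b a' b' s₁ s₂ hs₁ hs₂ ha hb s r hs hQ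
      obtain ⟨u, hu'⟩ := (hu s hs).mul (hu s₁ hs₁)
      refine ⟨↑u⁻¹ * (algebraMap S O r * algebraMap S O s₂), ?_⟩
      have h1 := hmem _ hQ
      rw [map_sub, map_mul, map_mul, ← ha, ← hb] at h1
      have h2 : (u : O) * (a - ↑u⁻¹ * (algebraMap S O r * algebraMap S O s₂) * b)
          = algebraMap S O s * (a * algebraMap S O s₁)
            - algebraMap S O r * (b * algebraMap S O s₂) := by
        rw [mul_sub, ← mul_assoc, ← mul_assoc, Units.mul_inv, hu']
        ring
      rw [← h2] at h1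
      exact (u.isUnit.dvd_mul_left).1 h1
    intro a b
    obtain ⟨⟨a', s₁⟩, ha⟩ := IsLocalization.surj n.primeCompl a
    obtain ⟨⟨b', s₂⟩, hb⟩ := IsLocalization.surj n.primeCompl b
    obtain ⟨s, r, hs, hQ | hQ⟩ := h.val a' b'
    · exact Or.inl (key a b a' b' s₁ s₂ s₁.2 s₂.2 ha hb s r hs hQ)
    · exact Or.inr (key b a b' a' s₂ s₁ s₂.2 s₁.2 hb ha s r hs hQ)

end Structure

section Main

variable [IsDomain S] [IsNoetherianRing S] {F : Type*} [Field F] [Algebra S F] [IsFractionRing S F]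
  {n : Ideal S} {π : S} {Q1 Q2 Q : Ideal S} {m : ℕ} {W : F}

/-- **LocNode at a maximal ideal.** -/
theorem locNodeAt (h : NodeAt n π Q1 Q2) (hn : Normal F π) (hm : 0 < m) {X : S} {T : ℕ}
    (hX : XData F π Q1 Q2 X T) (hmT : Nat.Coprime m T) (hW1 : VEq Q1 π 0 W) (hW2 : VEq Q2 π 0 W)
    (hinv : InvK π m W) :
    ∃ (y : F) (s t : S), y ≠ 0 ∧ s ∉ n ∧ t ∉ n ∧
      algebraMap S F s * (y ^ m * W) = algebraMap S F t := by
  haveI := h.max
  haveI : n.IsPrime := h.max.isPrime
  have hS : n.primeCompl ≤ nonZeroDivisors S := n.primeCompl_le_nonZeroDivisors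
  let O := Localization.subalgebra.ofField F n.primeCompl hS
  haveI : IsLocalization.AtPrime O n := Localization.subalgebra.isLocalization_ofField F _ hS
  haveI : IsFractionRing O F := Localization.subalgebra.isFractionRing_ofField F _ hS
  haveI : IsLocalRing O := IsLocalization.AtPrime.isLocalRing O n
  haveI : IsNoetherianRing O := IsLocalization.isNoetherianRing n.primeCompl O inferInstance
  obtain ⟨y, e, hy, he⟩ := locNode (h.node O) (hn.toLoc O (n := n)) hm
    (hX.toLoc O h.prime1 h.le1 h.prime2 h.le2) hmT (hW1.toLoc O h.prime1 h.le1)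
    (hW2.toLoc O h.prime2 h.le2) (hinv.toLoc O)
  obtain ⟨s, t, hs, ht, hst⟩ := exists_of_unit (F := F) O (n := n) e
  exact ⟨y, s, t, hy, hs, ht, by rw [he, hst]⟩

/-- **(RC) at a maximal ideal.** -/
theorem rcAt (h : NodeAt n π Q1 Q2) (hn : Normal F π) (hm : 0 < m) {X : S} {T : ℕ}
    (hX : XData F π Q1 Q2 X T) (hmT : Nat.Coprime m T) {u : F} {A B : ℤ}
    (hu1 : VEq Q1 π A u) (hu2 : VEq Q2 π B u) (hinv : InvK π m u) :
    ∃ (y : F) (s t : S), VEq Q1 π 0 y ∧ VEq Q2 π 0 y ∧ s ∉ n ∧ t ∉ n ∧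
      algebraMap S F s *
        (y ^ m * (u ^ T * algebraMap S F X ^ (A - B) * algebraMap S F π ^ (-(T * A))))
        = algebraMap S F t := by
  haveI := h.max
  haveI : n.IsPrime := h.max.isPrime
  have hS : n.primeCompl ≤ nonZeroDivisors S := n.primeCompl_le_nonZeroDivisors
  let O := Localization.subalgebra.ofField F n.primeCompl hS
  haveI : IsLocalization.AtPrime O n := Localization.subalgebra.isLocalization_ofField F _ hS
  haveI : IsFractionRing O F := Localization.subalgebra.isFractionRing_ofField F _ hS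
  haveI : IsLocalRing O := IsLocalization.AtPrime.isLocalRing O n
  haveI : IsNoetherianRing O := IsLocalization.isNoetherianRing n.primeCompl O inferInstance
  obtain ⟨y, e, hy1, hy2, he⟩ := rc (h.node O) (hn.toLoc O (n := n)) hm
    (hX.toLoc O h.prime1 h.le1 h.prime2 h.le2) hmT (hu1.toLoc O h.prime1 h.le1)
    (hu2.toLoc O h.prime2 h.le2) (hinv.toLoc O)
  obtain ⟨s, t, hs, ht, hst⟩ := exists_of_unit (F := F) O (n := n) e
  refine ⟨y, s, t, hy1.ofLoc O h.prime1 h.le1, hy2.ofLoc O h.prime2 h.le2, hs, ht, ?_⟩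
  rw [← hst, ← he, ← IsScalarTower.algebraMap_apply S O F, ← IsScalarTower.algebraMap_apply S O F]

/-- **LocSmooth at a maximal ideal.** -/
theorem locSmoothAt (h : SmoothAt n π Q) (hn : Normal F π) (hm : 0 < m) (hW1 : VEq Q π 0 W)
    (hinv : InvK π m W) :
    ∃ (y : F) (s t : S), y ≠ 0 ∧ s ∉ n ∧ t ∉ n ∧
      algebraMap S F s * (y ^ m * W) = algebraMap S F t := by
  haveI := h.max
  haveI : n.IsPrime := h.max.isPrime
  have hS : n.primeCompl ≤ nonZeroDivisors S := n.primeCompl_le_nonZeroDivisors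
  let O := Localization.subalgebra.ofField F n.primeCompl hS
  haveI : IsLocalization.AtPrime O n := Localization.subalgebra.isLocalization_ofField F _ hS
  haveI : IsFractionRing O F := Localization.subalgebra.isFractionRing_ofField F _ hS
  haveI : IsLocalRing O := IsLocalization.AtPrime.isLocalRing O n
  haveI : IsNoetherianRing O := IsLocalization.isNoetherianRing n.primeCompl O inferInstance
  have hW1' := hW1.toLoc O h.prime h.le
  rw [h.map_eq O] at hW1'
  obtain ⟨y, e, hy, he⟩ := locSmooth (h.smooth O) (hn.toLoc O (n := n)) hm hW1' (hinv.toLoc O)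
  obtain ⟨s, t, hs, ht, hst⟩ := exists_of_unit (F := F) O (n := n) e
  exact ⟨y, s, t, hy, hs, ht, by rw [he, hst]⟩

end Main

end Fermat.Agent.S44.Loc
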