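import Fermat.Agent.S44.Loc.At

/-!
# S44 / Loc / Etale : the ETALE STEP (#1785 (C)), elementwise, Mathlib only.

`S ⊆ S'` domains, `pb : PowerBasis S S'`, `z = pb.gen`, `G = minpoly S z` (monic, `S' = S[Z]/(G)`).
For an ideal `Q` of `S` and `a : S` with `G(a) ∈ Q`:   `ev pb Q a ha : S' →ₐ[S] S ⧸ Q`, `z ↦ a`,   `up pb Q a ha := ker (ev …)`  (`= Q S' + (z - a) S'`).

`EtData pb n Q g c` : `G ≡ ∏ i, (Z - (g + c i)) mod Q` and `c i - c j ∉ n` for `i ≠ j`.

MAIN RESULTS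
* `nodeAt_up`   : `NodeAt n π Q1 Q2`, `EtData pb n Q1 g1 c`, `EtData pb n Q2 g2 c`, `a1 = g1 + c i0`, `a2 = g2 + c j0`, `a1 - a2 ∈ n`
                  ⟹ `NodeAt (up n a1) π (up Q1 a1) (up Q2 a2)` in `S'`;
* `exists_index`: for each `i0` such a `j0` exists;
* `smoothAt_up` : the same for `SmoothAt`;
* transport of `VGe`, `VEq`, `InR`, `XData` from `(S, Q, F)` to `(S', up Q a, F')`.
(`Normal F' π` for `S'`: see `EtaleNormal.lean`.)

TASKS  S44/Loc-EtA (`ev` API, `mem_up_iff`, comap, prime/max, le),  S44/Loc-EtB (`mem_map_iff_repr`, `exists_sigma`, `exists_smul_mem_map`),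
       S44/Loc-EtC (`up_inf`, `up_sup`, `up_val`, `up_gen`),  S44/Loc-EtD (transport).
-/

set_option autoImplicit false

open Polynomial

namespace Fermat.Agent.S44.Loc

variable {S S' : Type*} [CommRing S] [CommRing S'] [Algebra S S'] (pb : PowerBasis S S')

theorem aeval_mk_eq_zero (Q : Ideal S) (a : S) (ha : (minpoly S pb.gen).eval a ∈ Q) :
    aeval (Ideal.Quotient.mk Q a) (minpoly S pb.gen) = 0 := by
  have h := Polynomial.aeval_algebraMap_apply (S ⧸ Q) a (minpoly S pb.gen)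
  rw [Ideal.Quotient.algebraMap_eq] at h
  rw [h, Polynomial.coe_aeval_eq_eval]
  exact Ideal.Quotient.eq_zero_iff_mem.2 ha

/-- evaluation `z ↦ a mod Q`. -/
noncomputable def ev (Q : Ideal S) (a : S) (ha : (minpoly S pb.gen).eval a ∈ Q) : S' →ₐ[S] S ⧸ Q :=
  pb.lift (Ideal.Quotient.mk Q a) (aeval_mk_eq_zero pb Q a ha)

/-- the ideal `Q S' + (z - a) S'`. -/
noncomputable def up (Q : Ideal S) (a : S) (ha : (minpoly S pb.gen).eval a ∈ Q) : Ideal S' :=
  RingHom.ker (ev pb Q a ha)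

/-- `G ≡ ∏ (Z - (g + c i)) mod Q`, the `c i` pairwise distinct mod `n`. -/
structure EtData {I : Type*} [Fintype I] (n Q : Ideal S) (g : S) (c : I → S) : Prop where
  fac : (minpoly S pb.gen).map (Ideal.Quotient.mk Q)
    = ∏ i, (X - C (Ideal.Quotient.mk Q (g + c i)))
  sep : ∀ i j, i ≠ j → c i - c j ∉ n

variable {pb} {Q Q1 Q2 n : Ideal S} {a a1 a2 g g1 g2 π : S}

/-! ### TASK S44/Loc-EtA -/

theorem ev_gen (ha : (minpoly S pb.gen).eval a ∈ Q) : ev pb Q a ha pb.gen = Ideal.Quotient.mk Q a :=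
  pb.lift_gen _ _

theorem ev_aeval (ha : (minpoly S pb.gen).eval a ∈ Q) (P : S[X]) :
    ev pb Q a ha (aeval pb.gen P) = Ideal.Quotient.mk Q (P.eval a) := by
  rw [← Polynomial.aeval_algHom_apply, ev_gen]
  have h := Polynomial.aeval_algebraMap_apply (S ⧸ Q) a P
  rw [Ideal.Quotient.algebraMap_eq] at h
  rw [h, Polynomial.coe_aeval_eq_eval]

theorem ev_algebraMap (ha : (minpoly S pb.gen).eval a ∈ Q) (s : S) :
    ev pb Q a ha (algebraMap S S' s) = Ideal.Quotient.mk Q s := by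
  rw [AlgHom.commutes, Ideal.Quotient.algebraMap_eq]

theorem ev_surjective (ha : (minpoly S pb.gen).eval a ∈ Q) : Function.Surjective (ev pb Q a ha) := by
  intro y
  obtain ⟨s, rfl⟩ := Ideal.Quotient.mk_surjective y
  exact ⟨algebraMap S S' s, ev_algebraMap ha s⟩

/-- every `x : S'` is `algebraMap x₀ + (z - a) * w` (`pb.exists_eq_aeval'`, `X - C a ∣ P - C (P.eval a)`). -/
theorem exists_eq_add_mul (pb : PowerBasis S S') (a : S) (x : S') :
    ∃ (x₀ : S) (w : S'), x = algebraMap S S' x₀ + (pb.gen - algebraMap S S' a) * w := by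
  obtain ⟨P, rfl⟩ := pb.exists_eq_aeval' x
  obtain ⟨R, hR⟩ := Polynomial.X_sub_C_dvd_sub_C_eval (a := a) (p := P)
  refine ⟨P.eval a, aeval pb.gen R, ?_⟩
  have h := congrArg (aeval pb.gen) hR
  rw [map_sub, map_mul, map_sub, aeval_X, aeval_C, aeval_C] at h
  rw [← h]
  ring

theorem gen_sub_mem_up (ha : (minpoly S pb.gen).eval a ∈ Q) :
    pb.gen - algebraMap S S' a ∈ up pb Q a ha := by
  rw [up, RingHom.mem_ker, map_sub, ev_gen, ev_algebraMap, sub_self]

theorem algebraMap_mem_up_iff (ha : (minpoly S pb.gen).eval a ∈ Q) {s : S} :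
    algebraMap S S' s ∈ up pb Q a ha ↔ s ∈ Q := by
  rw [up, RingHom.mem_ker, ev_algebraMap, Ideal.Quotient.eq_zero_iff_mem]

theorem mem_up_iff (ha : (minpoly S pb.gen).eval a ∈ Q) {x : S'} :
    x ∈ up pb Q a ha ↔ ∃ x₀ ∈ Q, ∃ w : S', x = algebraMap S S' x₀ + (pb.gen - algebraMap S S' a) * w := by
  constructor
  · intro hx
    obtain ⟨x₀, w, rfl⟩ := exists_eq_add_mul pb a x
    refine ⟨x₀, ?_, w, rfl⟩
    have h1 := (up pb Q a ha).mul_mem_right w (gen_sub_mem_up ha)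
    have h2 := (up pb Q a ha).sub_mem hx h1
    rw [add_sub_cancel_right] at h2
    exact (algebraMap_mem_up_iff ha).1 h2
  · rintro ⟨x₀, hx₀, w, rfl⟩
    exact (up pb Q a ha).add_mem ((algebraMap_mem_up_iff ha).2 hx₀)
      ((up pb Q a ha).mul_mem_right w (gen_sub_mem_up ha))

theorem up_isPrime (ha : (minpoly S pb.gen).eval a ∈ Q) (hQ : Q.IsPrime) : (up pb Q a ha).IsPrime := by
  haveI : IsDomain (S ⧸ Q) := Ideal.Quotient.isDomain Q
  exact RingHom.ker_isPrime _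

theorem up_isMaximal (ha : (minpoly S pb.gen).eval a ∈ Q) (hQ : Q.IsMaximal) :
    (up pb Q a ha).IsMaximal := by
  letI : Field (S ⧸ Q) := Ideal.Quotient.field Q
  exact RingHom.ker_isMaximal_of_surjective _ (ev_surjective ha)

/-- `Q ≤ n`, `a - a' ∈ n` ⟹ `up Q a ≤ up n a'`  (via `mem_up_iff`: `z - a = (z - a') + (a' - a)`). -/
theorem up_le_up {a' : S} (ha : (minpoly S pb.gen).eval a ∈ Q) (ha' : (minpoly S pb.gen).eval a' ∈ n)
    (hle : Q ≤ n) (haa : a - a' ∈ n) : up pb Q a ha ≤ up pb n a' ha' := by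
  intro x hx
  obtain ⟨x₀, hx₀, w, rfl⟩ := (mem_up_iff ha).1 hx
  refine (up pb n a' ha').add_mem ((algebraMap_mem_up_iff ha').2 (hle hx₀))
    ((up pb n a' ha').mul_mem_right w ?_)
  have h1 : pb.gen - algebraMap S S' a
      = (pb.gen - algebraMap S S' a') - algebraMap S S' (a - a') := by
    rw [map_sub]; ring
  rw [h1]
  exact (up pb n a' ha').sub_mem (gen_sub_mem_up ha') ((algebraMap_mem_up_iff ha').2 haa)

/-! ### TASK S44/Loc-EtB -/

/-- `S'` is free over `S`: `x ∈ Q S' ↔` all coordinates in `Q`.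
(`⇐`: `x = ∑ repr x k • b k`.  `⇒`: `Submodule.span_induction`/`Ideal.map` = span of the image; the set `{x | ∀ k, repr x k ∈ Q}` is an `S'`-ideal?  NOT obvious directly:
use `Ideal.smul_top_eq_map`: `Q.map = (Q • ⊤ : Submodule S S')` as `S`-modules, and `Submodule.smul_induction_on`.) -/
theorem mem_map_iff_repr (pb : PowerBasis S S') (Q : Ideal S) {x : S'} :
    x ∈ Q.map (algebraMap S S') ↔ ∀ k, pb.basis.repr x k ∈ Q := by
  have h1 : x ∈ Q.map (algebraMap S S') ↔ x ∈ (Q • ⊤ : Submodule S S') := by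
    rw [Ideal.smul_top_eq_map]
    rfl
  rw [h1, ← pb.basis.span_eq, Submodule.mem_ideal_smul_span_iff_exists_sum]
  constructor
  · rintro ⟨a, ha, rfl⟩ k
    have h2 : pb.basis.repr (a.sum fun i c => c • pb.basis i) = a :=
      pb.basis.repr_linearCombination a
    rw [h2]
    exact ha k
  · intro h
    exact ⟨pb.basis.repr x, h, pb.basis.linearCombination_repr x⟩

/-- evaluation of the factorisation. -/
theorem EtB_eval_sub_prod_mem {I : Type*} [Fintype I] {c : I → S} (h : EtData pb n Q g c) (a : S) :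
    (minpoly S pb.gen).eval a - ∏ i, (a - (g + c i)) ∈ Q := by
  rw [← Ideal.Quotient.eq]
  have h1 : Ideal.Quotient.mk Q ((minpoly S pb.gen).eval a) =
      ((minpoly S pb.gen).map (Ideal.Quotient.mk Q)).eval (Ideal.Quotient.mk Q a) := by
    rw [eval_map, eval₂_at_apply]
  rw [h1, h.fac, eval_prod, map_prod]
  refine Finset.prod_congr rfl fun i _ => ?_
  rw [eval_sub, eval_X, eval_C, map_sub]

/-- a polynomial with coefficients in `Q` has values in `Q S'`. -/
theorem EtB_aeval_mem_map (Q : Ideal S) (z : S') (P : S[X]) (hP : ∀ k, P.coeff k ∈ Q) :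
    aeval z P ∈ Q.map (algebraMap S S') := by
  rw [aeval_eq_sum_range]
  refine Ideal.sum_mem _ fun k _ => ?_
  rw [Algebra.smul_def]
  exact Ideal.mul_mem_right _ _ (Ideal.mem_map_of_mem _ (hP k))

/-- roots: `G (g + c i) ∈ Q`. -/
theorem EtData.eval_mem {I : Type*} [Fintype I] {c : I → S} (h : EtData pb n Q g c) (i : I) :
    (minpoly S pb.gen).eval (g + c i) ∈ Q := by
  have h1 := EtB_eval_sub_prod_mem h (g + c i)
  rwa [Finset.prod_eq_zero (Finset.mem_univ i) (sub_self _), sub_zero] at h1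

/-- (E4) `σ := ∏_{i ≠ i0} (z - g - c i)`: `σ ∉ up n a`, `σ * (z - a) ∈ Q S'`   (`a = g + c i0`).
`0 = G(z)`, `G - ∏ (X - C (g + c i))` has coefficients in `Q` (`Ideal.mem_map_C_iff`/`Polynomial.ext` on `fac`), so `∏_i (z - g - c i) ∈ Q S'`;
`ev n a σ = ∏_{i ≠ i0} mk (c i0 - c i) ≠ 0` in the field/domain `S ⧸ n`. -/
theorem EtData.exists_sigma {I : Type*} [Fintype I] [DecidableEq I] {c : I → S}
    (h : EtData pb n Q g c) (hn : n.IsPrime) (hle : Q ≤ n) (i0 : I)
    (ha : (minpoly S pb.gen).eval (g + c i0) ∈ n) :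
    ∃ σ : S', σ ∉ up pb n (g + c i0) ha ∧
      σ * (pb.gen - algebraMap S S' (g + c i0)) ∈ Q.map (algebraMap S S') := by
  refine ⟨∏ i ∈ Finset.univ.erase i0, (pb.gen - algebraMap S S' (g + c i)), ?_, ?_⟩
  · intro hmem
    have h1 : ev pb n (g + c i0) ha
        (∏ i ∈ Finset.univ.erase i0, (pb.gen - algebraMap S S' (g + c i))) = 0 :=
      RingHom.mem_ker.1 hmem
    rw [map_prod] at h1
    have : IsDomain (S ⧸ n) := Ideal.Quotient.isDomain n
    obtain ⟨i, hi, hi0⟩ := Finset.prod_eq_zero_iff.1 h1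
    rw [map_sub, ev_gen, ev_algebraMap, ← map_sub, Ideal.Quotient.eq_zero_iff_mem] at hi0
    apply h.sep i0 i (Finset.ne_of_mem_erase hi).symm
    have h2 : g + c i0 - (g + c i) = c i0 - c i := by ring
    rwa [h2] at hi0
  · rw [Finset.prod_erase_mul _ _ (Finset.mem_univ i0)]
    have h1 : ∏ i, (pb.gen - algebraMap S S' (g + c i)) =
        aeval pb.gen (∏ i, (X - C (g + c i)) - minpoly S pb.gen) := by
      rw [map_sub, minpoly.aeval, sub_zero, map_prod]
      refine Finset.prod_congr rfl fun i _ => ?_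
      rw [map_sub, aeval_X, aeval_C]
    rw [h1]
    apply EtB_aeval_mem_map
    intro k
    rw [← Ideal.Quotient.eq_zero_iff_mem, ← coeff_map, Polynomial.map_sub, h.fac,
      Polynomial.map_prod]
    have h2 : ∀ i, (X - C (g + c i) : S[X]).map (Ideal.Quotient.mk Q) =
        X - C (Ideal.Quotient.mk Q (g + c i)) := by
      intro i
      rw [Polynomial.map_sub, map_X, map_C]
    simp only [h2, sub_self, coeff_zero]

/-- consequence: `up Q a` is locally `Q S'`. -/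
theorem EtData.exists_mul_mem_map {I : Type*} [Fintype I] [DecidableEq I] {c : I → S}
    (h : EtData pb n Q g c) (hn : n.IsPrime) (hle : Q ≤ n) (i0 : I)
    (ha : (minpoly S pb.gen).eval (g + c i0) ∈ n) (haQ : (minpoly S pb.gen).eval (g + c i0) ∈ Q) :
    ∃ σ : S', σ ∉ up pb n (g + c i0) ha ∧
      ∀ x ∈ up pb Q (g + c i0) haQ, σ * x ∈ Q.map (algebraMap S S') := by
  obtain ⟨σ, hσ, hσ'⟩ := h.exists_sigma hn hle i0 ha
  refine ⟨σ, hσ, fun x hx => ?_⟩
  obtain ⟨x₀, hx₀, w, rfl⟩ := (mem_up_iff haQ).1 hx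
  rw [mul_add, ← mul_assoc]
  exact Ideal.add_mem _ (Ideal.mul_mem_left _ _ (Ideal.mem_map_of_mem _ hx₀))
    (Ideal.mul_mem_right _ _ hσ')

/-- (E10) the index on the second branch. -/
theorem exists_index {I : Type*} [Fintype I] {c : I → S} (h1 : EtData pb n Q1 g1 c)
    (h2 : EtData pb n Q2 g2 c) (hn : n.IsPrime) (hle1 : Q1 ≤ n) (hle2 : Q2 ≤ n) (i0 : I) :
    ∃ j0 : I, (g1 + c i0) - (g2 + c j0) ∈ n := by
  have h3 := hle1 (h1.eval_mem i0)
  have h4 := hle2 (EtB_eval_sub_prod_mem h2 (g1 + c i0))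
  have h5 := n.sub_mem h3 h4
  rw [sub_sub_cancel] at h5
  obtain ⟨j, -, hj⟩ := (hn.prod_mem_iff).1 h5
  exact ⟨j, hj⟩

/-! ### TASK S44/Loc-EtC -/

section UpNode

variable {I : Type*} [Fintype I] [DecidableEq I] {c : I → S} {i0 j0 : I}

omit [Fintype I] [DecidableEq I] in
/-- coordinatewise divisibility. -/
theorem EtC_dvd_of_coord (pb : PowerBasis S S') (hn : n.IsPrime) (y : S')
    (hy : ∀ k, ∃ s, s ∉ n ∧ π ∣ s * pb.basis.repr y k) :
    ∃ s, s ∉ n ∧ algebraMap S S' π ∣ algebraMap S S' s * y := by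
  classical
  choose s hs hd using hy
  refine ⟨∏ k, s k, ?_, ?_⟩
  · intro hmem
    obtain ⟨k, -, hk⟩ := (hn.prod_mem_iff).1 hmem
    exact hs k hk
  · have hd' : ∀ k, π ∣ (∏ k, s k) * pb.basis.repr y k := by
      intro k
      rw [← Finset.prod_erase_mul _ _ (Finset.mem_univ k), mul_assoc]
      exact Dvd.dvd.mul_left (hd k) _
    choose u hu using hd'
    refine ⟨∑ k, u k • pb.basis k, ?_⟩
    conv_lhs => rw [← pb.basis.sum_repr y]
    rw [Finset.mul_sum, Finset.mul_sum]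
    refine Finset.sum_congr rfl fun k _ => ?_
    rw [← Algebra.smul_def, ← Algebra.smul_def, smul_smul, smul_smul, hu k]

/-- (E5).  `x ∈ up Q1 a1 ∩ up Q2 a2`: `σ₁ σ₂ x ∈ Q1 S' ∩ Q2 S'`; coordinates `∈ Q1 ∩ Q2`; `h.inf` for each coordinate, product of the finitely many `s_k ∉ n`;
`t := algebraMap s * σ₁ * σ₂ ∉ up n a1` (prime; `algebraMap_mem_up_iff`; for `σ₂ ∉ up n a2 = up n a1` use `up_le_up` both ways or state `σ₂` w.r.t. `a1`). -/
theorem up_inf (h : NodeAt n π Q1 Q2) (h1 : EtData pb n Q1 g1 c) (h2 : EtData pb n Q2 g2 c)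
    (hij : (g1 + c i0) - (g2 + c j0) ∈ n)
    (hn1 : (minpoly S pb.gen).eval (g1 + c i0) ∈ n)
    (ha1 : (minpoly S pb.gen).eval (g1 + c i0) ∈ Q1)
    (ha2 : (minpoly S pb.gen).eval (g2 + c j0) ∈ Q2) :
    ∀ x ∈ up pb Q1 (g1 + c i0) ha1, x ∈ up pb Q2 (g2 + c j0) ha2 →
      ∃ t, t ∉ up pb n (g1 + c i0) hn1 ∧ algebraMap S S' π ∣ t * x := by
  intro x hx1 hx2
  have hn : n.IsPrime := h.max.isPrime
  have hn2 : (minpoly S pb.gen).eval (g2 + c j0) ∈ n := h.le2 ha2
  obtain ⟨σ₁, hσ₁, hσ₁'⟩ := h1.exists_mul_mem_map hn h.le1 i0 hn1 ha1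
  obtain ⟨σ₂, hσ₂, hσ₂'⟩ := h2.exists_mul_mem_map hn h.le2 j0 hn2 ha2
  have hσ₂n : σ₂ ∉ up pb n (g1 + c i0) hn1 := fun hm =>
    hσ₂ (up_le_up hn1 hn2 le_rfl hij hm)
  have hm1 : σ₁ * σ₂ * x ∈ Q1.map (algebraMap S S') := by
    have := Ideal.mul_mem_left _ σ₂ (hσ₁' x hx1)
    have e : σ₁ * σ₂ * x = σ₂ * (σ₁ * x) := by ring
    rwa [e]
  have hm2 : σ₁ * σ₂ * x ∈ Q2.map (algebraMap S S') := by
    have := Ideal.mul_mem_left _ σ₁ (hσ₂' x hx2)
    rwa [mul_assoc]
  obtain ⟨s, hs, hd⟩ := EtC_dvd_of_coord (π := π) pb hn (σ₁ * σ₂ * x) fun k =>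
    h.inf _ ((mem_map_iff_repr pb Q1).1 hm1 k) ((mem_map_iff_repr pb Q2).1 hm2 k)
  have hP := up_isPrime hn1 hn
  refine ⟨algebraMap S S' s * (σ₁ * σ₂), ?_, ?_⟩
  · intro hm
    rcases hP.mem_or_mem hm with h3 | h3
    · exact hs ((algebraMap_mem_up_iff hn1).1 h3)
    · rcases hP.mem_or_mem h3 with h4 | h4
      · exact hσ₁ h4
      · exact hσ₂n h4
  · rwa [mul_assoc]

omit [DecidableEq I] in
/-- (E6).  `x = algebraMap x₀ + (z - a1) w`, `x₀ ∈ n`; `h.sup x₀`. -/
theorem up_sup (h : NodeAt n π Q1 Q2)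
    (hn1 : (minpoly S pb.gen).eval a1 ∈ n) (ha1 : (minpoly S pb.gen).eval a1 ∈ Q1)
    (ha2 : (minpoly S pb.gen).eval a2 ∈ Q2) :
    ∀ x ∈ up pb n a1 hn1, ∃ t, t ∉ up pb n a1 hn1 ∧ t * x ∈ up pb Q1 a1 ha1 ⊔ up pb Q2 a2 ha2 := by
  intro x hx
  obtain ⟨x₀, hx₀, w, rfl⟩ := (mem_up_iff hn1).1 hx
  obtain ⟨s, hs, hsx⟩ := h.sup x₀ hx₀
  refine ⟨algebraMap S S' s, fun hm => hs ((algebraMap_mem_up_iff hn1).1 hm), ?_⟩
  obtain ⟨q1, hq1, q2, hq2, e⟩ := Submodule.mem_sup.1 hsx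
  rw [mul_add, ← map_mul, ← e, map_add]
  refine Ideal.add_mem _ (Ideal.add_mem _ ?_ ?_) ?_
  · exact Ideal.mem_sup_left ((algebraMap_mem_up_iff ha1).2 hq1)
  · exact Ideal.mem_sup_right ((algebraMap_mem_up_iff ha2).2 hq2)
  · exact Ideal.mem_sup_left (Ideal.mul_mem_left _ _
      (Ideal.mul_mem_right _ _ (gen_sub_mem_up ha1)))

/-- (E8).  `x ≡ algebraMap x₀`, `y ≡ algebraMap y₀ mod up Q a`. -/
theorem up_val {a' : S} (hn : n.IsPrime)
    (hval : ∀ x y : S, ∃ s r, s ∉ n ∧ (s * x - r * y ∈ Q ∨ s * y - r * x ∈ Q))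
    (hn1 : (minpoly S pb.gen).eval a' ∈ n) (ha : (minpoly S pb.gen).eval a ∈ Q) :
    ∀ x y : S', ∃ s r, s ∉ up pb n a' hn1 ∧
      (s * x - r * y ∈ up pb Q a ha ∨ s * y - r * x ∈ up pb Q a ha) := by
  intro x y
  obtain ⟨x₀, w, rfl⟩ := exists_eq_add_mul pb a x
  obtain ⟨y₀, w', rfl⟩ := exists_eq_add_mul pb a y
  obtain ⟨s, r, hs, hsr⟩ := hval x₀ y₀
  have key : ∀ (s r u v : S) (w w' : S'), s * u - r * v ∈ Q →
      algebraMap S S' s * (algebraMap S S' u + (pb.gen - algebraMap S S' a) * w)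
        - algebraMap S S' r * (algebraMap S S' v + (pb.gen - algebraMap S S' a) * w')
        ∈ up pb Q a ha := by
    intro s r u v w w' hm
    have e : algebraMap S S' s * (algebraMap S S' u + (pb.gen - algebraMap S S' a) * w)
        - algebraMap S S' r * (algebraMap S S' v + (pb.gen - algebraMap S S' a) * w')
        = algebraMap S S' (s * u - r * v)
          + (pb.gen - algebraMap S S' a) * (algebraMap S S' s * w - algebraMap S S' r * w') := by
      rw [map_sub, map_mul, map_mul]; ring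
    rw [e]
    exact Ideal.add_mem _ ((algebraMap_mem_up_iff ha).2 hm)
      (Ideal.mul_mem_right _ _ (gen_sub_mem_up ha))
  refine ⟨algebraMap S S' s, algebraMap S S' r,
    fun hm => hs ((algebraMap_mem_up_iff hn1).1 hm), ?_⟩
  rcases hsr with h1 | h1
  · exact Or.inl (key s r x₀ y₀ w w' h1)
  · exact Or.inr (key s r y₀ x₀ w' w h1)

/-- the smooth analogue of `up_inf`: `σ x ∈ Q S'`, coordinates in `Q`, `h.gen` for each coordinate. -/
theorem up_gen (h : SmoothAt n π Q) (h1 : EtData pb n Q g c)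
    (hn1 : (minpoly S pb.gen).eval (g + c i0) ∈ n) (ha : (minpoly S pb.gen).eval (g + c i0) ∈ Q) :
    ∀ x ∈ up pb Q (g + c i0) ha, ∃ t, t ∉ up pb n (g + c i0) hn1 ∧ algebraMap S S' π ∣ t * x := by
  intro x hx
  have hn : n.IsPrime := h.max.isPrime
  obtain ⟨σ, hσ, hσ'⟩ := h1.exists_mul_mem_map hn h.le i0 hn1 ha
  obtain ⟨s, hs, hd⟩ := EtC_dvd_of_coord (π := π) pb hn (σ * x) fun k =>
    h.gen _ ((mem_map_iff_repr pb Q).1 (hσ' x hx) k)
  have hP := up_isPrime hn1 hn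
  refine ⟨algebraMap S S' s * σ, ?_, ?_⟩
  · intro hm
    rcases hP.mem_or_mem hm with h3 | h3
    · exact hs ((algebraMap_mem_up_iff hn1).1 h3)
    · exact hσ h3
  · rwa [mul_assoc]

/-- **the étale step at a node.** -/
theorem nodeAt_up [IsDomain S] [IsDomain S'] (h : NodeAt n π Q1 Q2) (h1 : EtData pb n Q1 g1 c)
    (h2 : EtData pb n Q2 g2 c) (hij : (g1 + c i0) - (g2 + c j0) ∈ n) :
    NodeAt (up pb n (g1 + c i0) (h.le1 (h1.eval_mem i0))) (algebraMap S S' π)
      (up pb Q1 (g1 + c i0) (h1.eval_mem i0)) (up pb Q2 (g2 + c j0) (h2.eval_mem j0)) where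
  max := up_isMaximal _ h.max
  prime1 := up_isPrime _ h.prime1
  prime2 := up_isPrime _ h.prime2
  le1 := up_le_up _ _ h.le1 (by rw [sub_self]; exact n.zero_mem)
  le2 := up_le_up _ _ h.le2 (by
    have := n.neg_mem hij
    rwa [neg_sub] at this)
  ne_zero := by
    intro h0
    have hinj : Function.Injective (algebraMap S S') := pb.basis.algebraMap_injective
    exact h.ne_zero (hinj (by rw [h0, map_zero]))
  mem1 := (algebraMap_mem_up_iff _).2 h.mem1
  mem2 := (algebraMap_mem_up_iff _).2 h.mem2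
  inf := up_inf h h1 h2 hij _ _ _
  sup := up_sup h _ _ _
  not_le12 := fun hle => h.not_le12 fun s hs =>
    (algebraMap_mem_up_iff _).1 (hle ((algebraMap_mem_up_iff _).2 hs))
  not_le21 := fun hle => h.not_le21 fun s hs =>
    (algebraMap_mem_up_iff _).1 (hle ((algebraMap_mem_up_iff _).2 hs))
  val1 := up_val h.max.isPrime h.val1 _ _
  val2 := up_val h.max.isPrime h.val2 _ _

/-- **the étale step at a smooth point.** -/
theorem smoothAt_up [IsDomain S] [IsDomain S'] (h : SmoothAt n π Q) (h1 : EtData pb n Q g c) :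
    SmoothAt (up pb n (g + c i0) (h.le (h1.eval_mem i0))) (algebraMap S S' π)
      (up pb Q (g + c i0) (h1.eval_mem i0)) where
  max := up_isMaximal _ h.max
  prime := up_isPrime _ h.prime
  le := up_le_up _ _ h.le (by rw [sub_self]; exact n.zero_mem)
  ne_zero := by
    intro h0
    have hinj : Function.Injective (algebraMap S S') := pb.basis.algebraMap_injective
    exact h.ne_zero (hinj (by rw [h0, map_zero]))
  mem := (algebraMap_mem_up_iff _).2 h.mem
  gen := up_gen h h1 _ _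
  val := up_val h.max.isPrime h.val _ _

end UpNode

/-! ### TASK S44/Loc-EtD : transport of the predicates along `F → F'` -/

section TransportUp

variable {F F' : Type*} [Field F] [Field F'] [Algebra S F] [Algebra S' F'] [Algebra S F'] [Algebra F F']
  [IsScalarTower S F F'] [IsScalarTower S S' F'] {k : ℤ} {x : F}

theorem VGe.up (ha : (minpoly S pb.gen).eval a ∈ Q) (h : VGe Q π k x) :
    VGe (up pb Q a ha) (algebraMap S S' π) k (algebraMap F F' x) := by
  obtain ⟨s, o, hs, e⟩ := h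
  refine ⟨algebraMap S S' s, algebraMap S S' o, fun h => hs ((algebraMap_mem_up_iff ha).1 h), ?_⟩
  rw [← IsScalarTower.algebraMap_apply S S' F', ← IsScalarTower.algebraMap_apply S S' F',
    ← IsScalarTower.algebraMap_apply S S' F', IsScalarTower.algebraMap_apply S F F' s,
    IsScalarTower.algebraMap_apply S F F' π, IsScalarTower.algebraMap_apply S F F' o,
    ← map_mul, e, map_mul, map_zpow₀]

theorem VEq.up (ha : (minpoly S pb.gen).eval a ∈ Q) (h : VEq Q π k x) :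
    VEq (up pb Q a ha) (algebraMap S S' π) k (algebraMap F F' x) := by
  obtain ⟨s, o, hs, ho, e⟩ := h
  refine ⟨algebraMap S S' s, algebraMap S S' o, fun h => hs ((algebraMap_mem_up_iff ha).1 h),
    fun h => ho ((algebraMap_mem_up_iff ha).1 h), ?_⟩
  rw [← IsScalarTower.algebraMap_apply S S' F', ← IsScalarTower.algebraMap_apply S S' F',
    ← IsScalarTower.algebraMap_apply S S' F', IsScalarTower.algebraMap_apply S F F' s,
    IsScalarTower.algebraMap_apply S F F' π, IsScalarTower.algebraMap_apply S F F' o,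
    ← map_mul, e, map_mul, map_zpow₀]

theorem InR.up (pb : PowerBasis S S') (h : InR π x) : InR (algebraMap S S' π) (algebraMap F F' x) := by
  obtain ⟨j, o, e⟩ := h
  refine ⟨j, algebraMap S S' o, ?_⟩
  rw [← IsScalarTower.algebraMap_apply S S' F', ← IsScalarTower.algebraMap_apply S S' F',
    IsScalarTower.algebraMap_apply S F F' π, IsScalarTower.algebraMap_apply S F F' o,
    ← map_pow, ← map_mul, e]

theorem XData.up {X : S} {T : ℕ} (ha1 : (minpoly S pb.gen).eval a1 ∈ Q1)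
    (ha2 : (minpoly S pb.gen).eval a2 ∈ Q2) (h : XData F π Q1 Q2 X T) :
    XData F' (algebraMap S S' π) (up pb Q1 a1 ha1) (up pb Q2 a2 ha2) (algebraMap S S' X) T := by
  refine ⟨h.pos, fun h' => h.notMem1 ((algebraMap_mem_up_iff ha1).1 h'), ?_, ?_⟩
  · rw [← IsScalarTower.algebraMap_apply S S' F', IsScalarTower.algebraMap_apply S F F' X]
    exact h.v2.up ha2
  · rw [← IsScalarTower.algebraMap_apply S S' F', IsScalarTower.algebraMap_apply S F F' X,
      ← map_inv₀]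
    exact h.inv.up pb

end TransportUp

end Fermat.Agent.S44.Loc
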