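import Fermat.Agent.S44.Loc.Node

/-!
# S44 / Loc / IkFacts : formal properties of the modules `I_k`.

TASKS  S44/Loc-IkA (`Ik_anti`, `smul_mem_Ik_succ`, `exists_pi_smul`, `exists_pow_mul_mem_Ik`),  S44/Loc-IkB (`dichotomy1`, `dichotomy2`),
       S44/Loc-IkFG (`exists_denominator`, `Ik_fg`).
-/

set_option autoImplicit false

namespace Fermat.Agent.S44.Loc

variable {O : Type*} [CommRing O] [IsDomain O] [IsLocalRing O] {F : Type*} [Field F] [Algebra O F]
  [IsFractionRing O F] {π : O} {P1 P2 : Ideal O} {m : ℕ} {W : F}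
  (h : Node π P1 P2) (hn : Normal F π) (hm : 0 < m)

/-! ### TASK S44/Loc-IkA -/

theorem Ik_anti {k k' : ℤ} (hk : k ≤ k') : Ik h hn hm W k' ≤ Ik h hn hm W k := by
  intro y hy
  exact ⟨hy.1, hy.2.1, hy.2.2.mono h.locPrin2 hk⟩

/-- (F2) `VGe.smul_of_mem`. -/
theorem smul_mem_Ik_succ {k : ℤ} {p : O} (hp : p ∈ P2) {z : F} (hz : z ∈ Ik h hn hm W k) :
    p • z ∈ Ik h hn hm W (k + 1) := by
  exact ⟨hz.1.smul p, hz.2.1.smul p, hz.2.2.smul_of_mem h.locPrin2 hp⟩

/-- (F3) `z' := (ι π)⁻¹ * z`; `IsK.mul_inR` with `inR_pi_zpow (-1)`, `vGe_pi_zpow_mul_iff`. -/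
theorem exists_pi_smul {k : ℤ} {z : F} (hz : z ∈ Ik h hn hm W (k + 1)) (hz1 : VGe P1 π 1 z) :
    ∃ z' ∈ Ik h hn hm W k, z = π • z' := by
  have hπ : algebraMap O F π ≠ 0 := algebraMap_pi_ne_zero h.locPrin1
  have hzz : z = algebraMap O F π ^ (1 : ℤ) * ((algebraMap O F π) ^ (-1 : ℤ) * z) := by
    rw [← mul_assoc, ← zpow_add₀ hπ]; simp
  refine ⟨(algebraMap O F π) ^ (-1 : ℤ) * z, ⟨hz.1.mul_inR (inR_pi_zpow (-1)), ?_, ?_⟩, ?_⟩
  · rw [← vGe_pi_zpow_mul_iff h.locPrin1 1, ← hzz, zero_add]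
    exact hz1
  · rw [← vGe_pi_zpow_mul_iff h.locPrin2 1, ← hzz]
    exact hz.2.2
  · rw [Algebra.smul_def]
    conv_lhs => rw [hzz]
    rw [zpow_one]

/-- for `a` with `IsK`, `π ^ j * a ∈ I_k` for all large `j` (`a = 0` trivial; else `exists_vEq` at `P1` and `P2`, `VEq.vGe`, `VGe.mono`,
`vGe_pi_zpow_mul_iff`). -/
theorem exists_pow_mul_mem_Ik [IsNoetherianRing O] (k : ℤ) {a : F} (ha : IsK π m W a) :
    ∃ j₀ : ℕ, ∀ j : ℕ, j₀ ≤ j → algebraMap O F π ^ j * a ∈ Ik h hn hm W k := by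
  by_cases ha0 : a = 0
  · subst ha0
    exact ⟨0, fun j _ => by rw [mul_zero]; exact (Ik h hn hm W k).zero_mem⟩
  obtain ⟨k₁, h₁⟩ := exists_vEq h.locPrin1 ha0
  obtain ⟨k₂, h₂⟩ := exists_vEq h.locPrin2 ha0
  refine ⟨(-k₁).toNat + (k - k₂).toNat, fun j hj => ⟨?_, ?_, ?_⟩⟩
  · have := ha.mul_inR (inR_pi_zpow (π := π) (F := F) (j : ℤ))
    rwa [zpow_natCast] at this
  · have h3 := (vGe_pi_zpow_mul_iff h.locPrin1 (j : ℤ)).mpr h₁.vGe
    rw [zpow_natCast] at h3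
    exact h3.mono h.locPrin1 (by omega)
  · have h3 := (vGe_pi_zpow_mul_iff h.locPrin2 (j : ℤ)).mpr h₂.vGe
    rw [zpow_natCast] at h3
    exact h3.mono h.locPrin2 (by omega)

/-! ### TASK S44/Loc-IkB -/

omit [IsLocalRing O] [IsDomain O] [IsFractionRing O F] in
/-- cancel a factor `s ∉ P`. -/
theorem vGe_of_algebraMap_mul {P : Ideal O} {k : ℤ} {z : F} (hP : LocPrin P π) {s : O}
    (hs : s ∉ P) (hz : VGe P π k (algebraMap O F s * z)) : VGe P π k z := by
  obtain ⟨s', o, hs', e⟩ := hz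
  refine ⟨s' * s, o, fun hmem => ?_, ?_⟩
  · rcases hP.prime.mem_or_mem hmem with h1 | h1
    · exact hs' h1
    · exact hs h1
  · rw [map_mul, mul_assoc, e]

include h in
/-- `y = o / s`, `z = o' / s'` (`s, s' ∉ P1`); apply `h.val1` to `o' * s`, `o * s'`; `vGe_one_of_mem`. -/
theorem dichotomy1 {y z : F} (hy : VGe P1 π 0 y) (hz : VGe P1 π 0 z) :
    (∃ r : O, VGe P1 π 1 (z - r • y)) ∨ (∃ r : O, VGe P1 π 1 (y - r • z)) := by
  obtain ⟨s, o, hs, e⟩ := hy
  obtain ⟨s', o', hs', e'⟩ := hz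
  rw [zpow_zero, one_mul] at e e'
  have hss : s * s' ∉ P1 := fun hmem => (h.prime1.mem_or_mem hmem).elim hs hs'
  rcases h.val1 (o' * s) (o * s') with ⟨r, hr⟩ | ⟨r, hr⟩
  · left
    refine ⟨r, vGe_of_algebraMap_mul h.locPrin1 hss ?_⟩
    have e3 : algebraMap O F (s * s') * (z - r • y) = algebraMap O F (o' * s - r * (o * s')) := by
      rw [Algebra.smul_def, map_sub, map_mul, map_mul, map_mul, map_mul, ← e, ← e']
      ring
    rw [e3]
    exact vGe_one_of_mem h.locPrin1 hr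
  · right
    refine ⟨r, vGe_of_algebraMap_mul h.locPrin1 hss ?_⟩
    have e3 : algebraMap O F (s * s') * (y - r • z) = algebraMap O F (o * s' - r * (o' * s)) := by
      rw [Algebra.smul_def, map_sub, map_mul, map_mul, map_mul, map_mul, ← e, ← e']
      ring
    rw [e3]
    exact vGe_one_of_mem h.locPrin1 hr

/-- (F4).  If `VGe P2 π (k+1) z`: left with `r = 0`.  Else if `VGe P2 π (k+1) y`: right with `r = 0`.  Else both are `VEq P2 π k`
(`vEq_of_vGe_of_not`): `s * y = π ^ k * o`, `s' * z = π ^ k * o'`, all four `∉ P2`.  `A := o' * s`, `B := o * s'` (so `z / y = A / B`).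
`h.val2 A B`: if `A - r * B ∈ P2` then `(s * s') • (z - r • y) = π ^ k * (A - r B)`, so `VGe P2 π (k+1) (z - r • y)`: left.
If `B - r * A ∈ P2`: if `r` is a unit, `A - r⁻¹ * B ∈ P2`: left; otherwise `r ∈ 𝔪`: right. -/
theorem dichotomy2 {k : ℤ} {y z : F} (hy : y ∈ Ik h hn hm W k) (hz : z ∈ Ik h hn hm W k) :
    (∃ r : O, z - r • y ∈ Ik h hn hm W (k + 1)) ∨
      (∃ r ∈ IsLocalRing.maximalIdeal O, y - r • z ∈ Ik h hn hm W (k + 1)) := by
  have hsub : ∀ (r : O) (a b : F), a ∈ Ik h hn hm W k → b ∈ Ik h hn hm W k →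
      VGe P2 π (k + 1) (a - r • b) → a - r • b ∈ Ik h hn hm W (k + 1) := by
    intro r a b ha hb hv
    have hmem : a - r • b ∈ Ik h hn hm W k := sub_mem ha (Submodule.smul_mem _ r hb)
    exact ⟨hmem.1, hmem.2.1, hv⟩
  by_cases hz1 : VGe P2 π (k + 1) z
  · left
    refine ⟨0, hsub 0 z y hz hy ?_⟩
    rwa [zero_smul, sub_zero]
  by_cases hy1 : VGe P2 π (k + 1) y
  · right
    refine ⟨0, Ideal.zero_mem _, hsub 0 y z hy hz ?_⟩
    rwa [zero_smul, sub_zero]
  obtain ⟨s, o, hs, ho, e⟩ := vEq_of_vGe_of_not h.locPrin2 hy.2.2 hy1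
  obtain ⟨s', o', hs', ho', e'⟩ := vEq_of_vGe_of_not h.locPrin2 hz.2.2 hz1
  have hss : s * s' ∉ P2 := fun hmem => (h.prime2.mem_or_mem hmem).elim hs hs'
  have key : ∀ x : O, x ∈ P2 → VGe P2 π (k + 1) (algebraMap O F π ^ k * algebraMap O F x) :=
    fun x hx => (vEq_pi_zpow h.locPrin2 k).vGe.mul h.locPrin2 (vGe_one_of_mem h.locPrin2 hx)
  have hleft : ∀ r : O, o' * s - r * (o * s') ∈ P2 → VGe P2 π (k + 1) (z - r • y) := by
    intro r hr
    refine vGe_of_algebraMap_mul h.locPrin2 hss ?_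
    have e3 : algebraMap O F (s * s') * (z - r • y)
        = algebraMap O F π ^ k * algebraMap O F (o' * s - r * (o * s')) := by
      rw [Algebra.smul_def, map_sub, map_mul, map_mul, map_mul, map_mul]
      linear_combination (algebraMap O F s) * e' - (algebraMap O F r) * (algebraMap O F s') * e
    rw [e3]
    exact key _ hr
  have hright : ∀ r : O, o * s' - r * (o' * s) ∈ P2 → VGe P2 π (k + 1) (y - r • z) := by
    intro r hr
    refine vGe_of_algebraMap_mul h.locPrin2 hss ?_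
    have e3 : algebraMap O F (s * s') * (y - r • z)
        = algebraMap O F π ^ k * algebraMap O F (o * s' - r * (o' * s)) := by
      rw [Algebra.smul_def, map_sub, map_mul, map_mul, map_mul, map_mul]
      linear_combination (algebraMap O F s') * e - (algebraMap O F r) * (algebraMap O F s) * e'
    rw [e3]
    exact key _ hr
  rcases h.val2 (o' * s) (o * s') with ⟨r, hr⟩ | ⟨r, hr⟩
  · left
    exact ⟨r, hsub r z y hz hy (hleft r hr)⟩
  · by_cases hu : IsUnit r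
    · left
      obtain ⟨u, rfl⟩ := hu
      refine ⟨((u⁻¹ : Oˣ) : O), hsub _ z y hz hy (hleft _ ?_)⟩
      have e4 : o' * s - ((u⁻¹ : Oˣ) : O) * (o * s')
          = -((u⁻¹ : Oˣ) : O) * (o * s' - (u : O) * (o' * s)) := by
        have hu1 : ((u⁻¹ : Oˣ) : O) * (u : O) = 1 := Units.inv_mul u
        linear_combination (-(o' * s)) * hu1
      rw [e4]
      exact P2.mul_mem_left _ hr
    · right
      exact ⟨r, (IsLocalRing.mem_maximalIdeal r).mpr hu, hsub r y z hy hz (hright r hr)⟩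

/-! ### TASK S44/Loc-IkFG -/

/-- from `InvK`: some `b i ≠ 0`; `b := π ^ j * b i` with `j` large (`exists_pow_mul_mem_Ik` for `W⁻¹` and `-k`, or directly `exists_vEq`):
`IsK π m W⁻¹ b`, `VGe P1 π 0 b`, `VGe P2 π (-k) b`.  For `y ∈ I_k`: `InR (y * b)` (`IsK.mul_inv`), `VGe P_i π 0 (y * b)` (`VGe.mul`), `Node.sat`. -/
theorem exists_denominator [IsNoetherianRing O] (hW : W ≠ 0) (hinv : InvK π m W) (k : ℤ) :
    ∃ b : F, b ≠ 0 ∧ ∀ y ∈ Ik h hn hm W k, ∃ o : O, algebraMap O F o = y * b := by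
  obtain ⟨r, a, b, ha, hb, hsum⟩ := hinv
  obtain ⟨i, hi⟩ : ∃ i, b i ≠ 0 := by
    by_contra hcon
    push Not at hcon
    have : ∑ i, a i * b i = 0 := Finset.sum_eq_zero fun i _ => by rw [hcon i, mul_zero]
    rw [this] at hsum
    exact zero_ne_one hsum
  obtain ⟨j₀, hj₀⟩ := exists_pow_mul_mem_Ik h hn hm (W := W⁻¹) (-k) (hb i)
  have hπ : algebraMap O F π ≠ 0 := algebraMap_pi_ne_zero h.locPrin1
  have hmem := hj₀ j₀ le_rfl
  refine ⟨algebraMap O F π ^ j₀ * b i, mul_ne_zero (pow_ne_zero _ hπ) hi, fun y hy => ?_⟩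
  refine h.sat (hy.1.mul_inv hn hm hW hmem.1) ?_ ?_
  · have := hy.2.1.mul h.locPrin1 hmem.2.1
    rwa [add_zero] at this
  · have := hy.2.2.mul h.locPrin2 hmem.2.2
    rwa [add_neg_cancel] at this

/-- `I_k ≤ span {b⁻¹}`, a noetherian module (`isNoetherian_span_of_finite`/`isNoetherian_of_fg_of_noetherian`), so `I_k` is f.g. -/
theorem Ik_fg [IsNoetherianRing O] (hW : W ≠ 0) (hinv : InvK π m W) (k : ℤ) :
    (Ik h hn hm W k).FG := by
  obtain ⟨b, hb, hden⟩ := exists_denominator h hn hm hW hinv k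
  have hle : Ik h hn hm W k ≤ Submodule.span O {b⁻¹} := by
    intro y hy
    obtain ⟨o, ho⟩ := hden y hy
    rw [Submodule.mem_span_singleton]
    refine ⟨o, ?_⟩
    rw [Algebra.smul_def, ho, mul_assoc, mul_inv_cancel₀ hb, mul_one]
  have hN : IsNoetherian O (Submodule.span O ({b⁻¹} : Set F)) :=
    isNoetherian_span_of_finite O (Set.finite_singleton _)
  have h1 := (IsNoetherian.noetherian (Submodule.comap (Submodule.span O ({b⁻¹} : Set F)).subtype
    (Ik h hn hm W k))).map (Submodule.span O ({b⁻¹} : Set F)).subtype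
  rwa [Submodule.map_comap_subtype, inf_eq_right.mpr hle] at h1

end Fermat.Agent.S44.Loc
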