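import Fermat.Agent.S44.Loc.Prin

/-!
# S44 / Loc / Main : **LocNode** (helper91's blueprint #1785 (A)), assembled from `Val`, `Node`, `IkFacts`, `Prin`.

`O` a noetherian local domain, `F = Frac O`, `Node π P1 P2`, `O[1/π]` integrally closed (`Normal F π`), `X` a unit of `O[1/π]` with `v₁ X = 0`,
`v₂ X = T ≥ 1`, `gcd (m, T) = 1`, `W ∈ F` with `v₁ W = v₂ W = 0` and `InvK π m W`.   THEN `∃ y ≠ 0, y ^ m * W ∈ Oˣ`.
-/

set_option autoImplicit false

namespace Fermat.Agent.S44.Loc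

theorem final_identity {F : Type*} [Field F] {W : F} (y Xf : F) (hW : W ≠ 0)
    (m T : ℕ) (k a b : ℤ) (hab : a * T + b * m = 1) :
    ((Xf ^ (k * a) * y ^ (-(T * a)) * W ^ b)⁻¹) ^ m * W
      = ((y ^ m * W) ^ T * Xf ^ (-(m * k))) ^ a := by
  have e1 : ((Xf ^ (k * a) * y ^ (-(T * a)) * W ^ b)⁻¹) ^ m
      = Xf ^ (-(k * a * m)) * y ^ (T * a * m) * W ^ (-(b * m)) := by
    rw [← zpow_natCast, ← zpow_neg_one, ← zpow_mul, mul_zpow, mul_zpow, ← zpow_mul, ← zpow_mul,
      ← zpow_mul]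
    congr 2 <;> congr 1 <;> ring
  have e2 : ((y ^ m * W) ^ T * Xf ^ (-(m * k))) ^ a
      = Xf ^ (-(k * a * m)) * y ^ (T * a * m) * W ^ (a * T) := by
    rw [mul_zpow, ← zpow_mul, ← zpow_natCast (y ^ m * W), ← zpow_mul, mul_zpow, ← zpow_natCast y,
      ← zpow_mul]
    have : (-(↑m * k) * a) = -(k * a * m) := by ring
    rw [this]
    have : (↑m * (↑T * a)) = T * a * m := by ring
    rw [this]
    have : (↑T * a) = a * T := by ring
    rw [this]
    ring
  rw [e1, e2]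
  have e3 : W ^ (-(b * m)) * W = W ^ (a * T) := by
    conv_lhs => rw [← zpow_add_one₀ hW]
    congr 1
    linarith
  rw [mul_assoc, e3]

variable {O : Type*} [CommRing O] [IsDomain O] [IsLocalRing O] {F : Type*} [Field F] [Algebra O F]
  [IsFractionRing O F] {π : O} {P1 P2 : Ideal O} {m : ℕ} {W : F}

/-- `InR` for integral powers of a unit of `O[1/π]`. -/
theorem InR.zpow {z : F} (hz : InR π z) (hz' : InR π z⁻¹) (j : ℤ) : InR π (z ^ j) := by
  obtain ⟨n, rfl | rfl⟩ := j.eq_nat_or_neg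
  · rw [zpow_natCast]; exact hz.pow n
  · rw [zpow_neg, zpow_natCast, ← inv_pow]; exact hz'.pow n

/-- (E-a) if `I_k = O y` then `y⁻¹ ∈ I_K(W⁻¹)`. -/
theorem isK_inv_of_span [IsNoetherianRing O] (h : Node π P1 P2) (hn : Normal F π) (hm : 0 < m)
    (hinv : InvK π m W) {k : ℤ} {y : F}
    (hspan : ∀ z ∈ Ik h hn hm W k, ∃ r : O, z = r • y) : IsK π m W⁻¹ y⁻¹ := by
  obtain ⟨r, a, b, ha, hb, hab⟩ := hinv
  have hπ : algebraMap O F π ≠ 0 := algebraMap_pi_ne_zero h.locPrin1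
  -- a common exponent
  choose j₀ hj₀ using fun i => exists_pow_mul_mem_Ik h hn hm k (ha i)
  set j := ∑ i, j₀ i with hj
  have hle : ∀ i, j₀ i ≤ j := fun i => Finset.single_le_sum (fun _ _ => Nat.zero_le _) (Finset.mem_univ i)
  choose o ho using fun i => hspan _ (hj₀ i j (hle i))
  have h1 : algebraMap O F π ^ j = y * ∑ i, o i • b i := by
    calc algebraMap O F π ^ j = algebraMap O F π ^ j * ∑ i, a i * b i := by rw [hab, mul_one]
      _ = ∑ i, (algebraMap O F π ^ j * a i) * b i := by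
          rw [Finset.mul_sum]; exact Finset.sum_congr rfl fun i _ => by ring
      _ = ∑ i, y * (o i • b i) := by
          refine Finset.sum_congr rfl fun i _ => ?_
          rw [ho i, Algebra.smul_def, Algebra.smul_def]; ring
      _ = y * ∑ i, o i • b i := by rw [Finset.mul_sum]
  have hy : y ≠ 0 := by
    rintro rfl
    rw [zero_mul] at h1
    exact pow_ne_zero _ hπ h1
  have h2 : y⁻¹ = algebraMap O F π ^ (-(j : ℤ)) * ∑ i, o i • b i := by
    rw [zpow_neg, zpow_natCast, h1]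
    have hs : ∑ i, o i • b i ≠ 0 := by
      intro hs
      rw [hs, mul_zero] at h1
      exact pow_ne_zero _ hπ h1
    field_simp
  rw [h2]
  exact (IsK.sum hn hm _ _ fun i _ => (hb i).smul (o i)).mul_inR (inR_pi_zpow _)

/-- **LocNode.** -/
theorem locNode [IsNoetherianRing O] (h : Node π P1 P2) (hn : Normal F π) (hm : 0 < m)
    {X : O} {T : ℕ} (hX : XData F π P1 P2 X T) (hmT : Nat.Coprime m T)
    (hW1 : VEq P1 π 0 W) (hW2 : VEq P2 π 0 W) (hinv : InvK π m W) :
    ∃ (y : F) (e : Oˣ), y ≠ 0 ∧ y ^ m * W = algebraMap O F (e : O) := by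
  have hP1 := h.locPrin1
  have hP2 := h.locPrin2
  have hW : W ≠ 0 := hW1.ne_zero hP1
  obtain ⟨k, y, hy, hgen, hjump⟩ := exists_jump h hn hm hX hW hinv
  have hspan := eq_span_of_jump h hn hm (Ik_fg h hn hm hW hinv k) hy hgen hjump
  -- valuations of `y`
  have hy1 : VEq P1 π 0 y := by
    refine vEq_of_vGe_of_not hP1 hy.2.1 ?_
    have := hjump 0 (Submodule.zero_mem _)
    rwa [sub_zero] at this
  have hy2 : VEq P2 π k y := by
    refine vEq_of_vGe_of_not hP2 hy.2.2 ?_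
    intro hc
    have hmem : y ∈ Ik h hn hm W (k + 1) := ⟨hy.1, hy.2.1, hc⟩
    apply hjump y hmem
    rw [sub_self]
    exact vGe_zero hP1 _
  have hy0 : y ≠ 0 := hy1.ne_zero hP1
  -- `u`
  set u := y ^ m * W with hu
  have hu_in : InR π u := hy.1
  have hu_inv : InR π u⁻¹ := by
    have := isK_inv_of_span h hn hm hinv hspan
    rw [IsK, inv_pow, ← mul_inv] at this
    exact this
  have hu1 : VEq P1 π 0 u := by
    have := (hy1.pow hP1 m).mul hP1 hW1
    simpa using this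
  have hu2 : VEq P2 π (m * k) u := by
    have := (hy2.pow hP2 m).mul hP2 hW2
    simpa using this
  -- `X`
  have hX1 : VEq P1 π 0 (algebraMap O F X) := vEq_of_notMem hP1 hX.notMem1
  have hXin : InR π (algebraMap O F X) := inR_algebraMap X
  -- `η`
  set η := u ^ T * algebraMap O F X ^ (-((m : ℤ) * k)) with hη
  have hη_in : InR π η := (hu_in.pow T).mul (hXin.zpow hX.inv _)
  have hη_inv : InR π η⁻¹ := by
    rw [hη, mul_inv, ← inv_pow, ← zpow_neg]
    exact (hu_inv.pow T).mul (hXin.zpow hX.inv _)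
  have hη1 : VEq P1 π 0 η := by
    have := (hu1.pow hP1 T).mul hP1 (hX1.zpow hP1 (-((m : ℤ) * k)))
    have e : (T : ℤ) * 0 + -((m : ℤ) * k) * 0 = 0 := by ring
    rwa [e] at this
  have hη2 : VEq P2 π 0 η := by
    have := (hu2.pow hP2 T).mul hP2 (hX.v2.zpow hP2 (-((m : ℤ) * k)))
    have e : (T : ℤ) * (m * k) + -((m : ℤ) * k) * T = 0 := by ring
    rwa [e] at this
  obtain ⟨e, he⟩ := h.sat_unit hη_in hη_inv hη1 hη2
  -- Bezout
  have hcop : IsCoprime (T : ℤ) (m : ℤ) := Nat.isCoprime_iff_coprime.2 hmT.symm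
  obtain ⟨a, b, hab⟩ := hcop
  have hXne : algebraMap O F X ≠ 0 := hX1.ne_zero hP1
  refine ⟨(algebraMap O F X ^ (k * a) * y ^ (-(T * a)) * W ^ b)⁻¹, e ^ a, ?_, ?_⟩
  · exact inv_ne_zero (mul_ne_zero (mul_ne_zero (zpow_ne_zero _ hXne) (zpow_ne_zero _ hy0))
      (zpow_ne_zero _ hW))
  · rw [final_identity y (algebraMap O F X) hW m T k a b hab, ← hu, ← hη, ← he]
    have : ((Units.map (algebraMap O F).toMonoidHom e : Fˣ) : F) = algebraMap O F (e : O) := rfl
    rw [← this, ← Units.val_zpow_eq_zpow_val, ← map_zpow]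
    rfl

end Fermat.Agent.S44.Loc
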