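import Fermat.Agent.S44.Loc.Val

/-!
# S44 / Loc / Node : the local ring of a node; `O[1/π]`; saturation; the twisted modules `I_k`.

`O` a local domain, `F = Frac O`, `π ≠ 0`, `P1`, `P2` primes with `P1 ⊓ P2 = (π)`, `P1 ⊔ P2 = 𝔪`, incomparable, `O/P1`, `O/P2`
valuation rings (elementwise: `val1`, `val2`).

* `InR π z`     : `z ∈ O[1/π]`;
* `IsK π m W y` : `y ^ m * W ∈ O[1/π]`;
* `InvK π m W`  : `1 = ∑ a i * b i`, `IsK π m W (a i)`, `IsK π m W⁻¹ (b i)`   (same shape as `SS.G2.InvK`);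
* `Normal π`    : every element of `F` integral over `O` lies in `O[1/π]`  (⟺ `O[1/π]` integrally closed);
* `Ik … k`      : the `O`-module `{y | IsK π m W y, v₁ y ≥ 0, v₂ y ≥ k}`.

TASKS  S44/Loc-InR (`InR` API + `root`), S44/Loc-Node (`locPrin1/2`, `sat`, `ofDVR`), S44/Loc-IsK (`IsK` API).
-/

set_option autoImplicit false

namespace Fermat.Agent.S44.Loc

variable {O : Type*} [CommRing O] {F : Type*} [Field F] [Algebra O F]

/-- `z ∈ O[1/π]`. -/
def InR (π : O) (z : F) : Prop := ∃ (j : ℕ) (o : O), algebraMap O F π ^ j * z = algebraMap O F o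

/-- `y ^ m * W ∈ O[1/π]`. -/
def IsK (π : O) (m : ℕ) (W y : F) : Prop := InR π (y ^ m * W)

/-- `1 ∈ I_K(W) * I_K(W⁻¹)`. -/
def InvK (π : O) (m : ℕ) (W : F) : Prop :=
  ∃ (r : ℕ) (a b : Fin r → F), (∀ i, IsK π m W (a i)) ∧ (∀ i, IsK π m W⁻¹ (b i)) ∧ ∑ i, a i * b i = 1

/-- `O[1/π]` is integrally closed in `F`. -/
def Normal (F : Type*) [Field F] [Algebra O F] (π : O) : Prop := ∀ z : F, IsIntegral O z → InR π z

/-- the local ring of a node. -/
structure Node [IsLocalRing O] (π : O) (P1 P2 : Ideal O) : Prop where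
  prime1 : P1.IsPrime
  prime2 : P2.IsPrime
  ne_zero : π ≠ 0
  inf_eq : P1 ⊓ P2 = Ideal.span {π}
  sup_eq : P1 ⊔ P2 = IsLocalRing.maximalIdeal O
  not_le12 : ¬ P1 ≤ P2
  not_le21 : ¬ P2 ≤ P1
  val1 : ∀ a b : O, (∃ r, a - r * b ∈ P1) ∨ (∃ r, b - r * a ∈ P1)
  val2 : ∀ a b : O, (∃ r, a - r * b ∈ P2) ∨ (∃ r, b - r * a ∈ P2)

variable {π : O} {z z' : F}

/-! ### TASK S44/Loc-InR   (each 3-10 lines; `π ^ (j + j')`) -/

theorem inR_algebraMap (o : O) : InR π (algebraMap O F o) := by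
  exact ⟨0, o, by simp⟩

theorem inR_zero : InR π (0 : F) := by
  exact ⟨0, 0, by simp⟩

theorem inR_one : InR π (1 : F) := by
  exact ⟨0, 1, by simp⟩

theorem InR.add (h : InR π z) (h' : InR π z') : InR π (z + z') := by
  obtain ⟨j, o, e⟩ := h
  obtain ⟨j', o', e'⟩ := h'
  refine ⟨j + j', π ^ j' * o + π ^ j * o', ?_⟩
  rw [map_add, map_mul, map_mul, map_pow, map_pow, ← e, ← e', pow_add]
  ring

theorem InR.neg (h : InR π z) : InR π (-z) := by
  obtain ⟨j, o, e⟩ := h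
  exact ⟨j, -o, by rw [mul_neg, e, map_neg]⟩

theorem InR.mul (h : InR π z) (h' : InR π z') : InR π (z * z') := by
  obtain ⟨j, o, e⟩ := h
  obtain ⟨j', o', e'⟩ := h'
  refine ⟨j + j', o * o', ?_⟩
  rw [map_mul, ← e, ← e', pow_add]
  ring

theorem InR.pow (h : InR π z) (n : ℕ) : InR π (z ^ n) := by
  induction n with
  | zero => rw [pow_zero]; exact inR_one
  | succ n ih => rw [pow_succ]; exact ih.mul h

theorem InR.sum {α : Type*} (s : Finset α) (f : α → F) (h : ∀ i ∈ s, InR π (f i)) :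
    InR π (∑ i ∈ s, f i) := by
  classical
  induction s using Finset.induction_on with
  | empty => rw [Finset.sum_empty]; exact inR_zero
  | insert a s ha ih =>
    rw [Finset.sum_insert ha]
    exact (h a (Finset.mem_insert_self a s)).add
      (ih fun i hi => h i (Finset.mem_insert_of_mem hi))

theorem InR.natCast_mul (n : ℕ) (h : InR π z) : InR π ((n : F) * z) := by
  have h1 : InR π ((n : F)) := by
    have := inR_algebraMap (π := π) (F := F) (n : O)
    rwa [map_natCast] at this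
  exact h1.mul h

/-- no hypothesis on `π` needed: if `ι π = 0` then `j = 1`, `o = 0`. -/
theorem inR_pi_zpow (j : ℤ) : InR π (algebraMap O F π ^ j : F) := by
  by_cases hπ : algebraMap O F π = 0
  · exact ⟨1, 0, by rw [hπ]; simp⟩
  obtain ⟨n, rfl | rfl⟩ := j.eq_nat_or_neg
  · exact ⟨0, π ^ n, by simp⟩
  · exact ⟨n, 1, by rw [zpow_neg, zpow_natCast, mul_inv_cancel₀ (pow_ne_zero _ hπ), map_one]⟩

/-- `π ^ j * z ^ m = o` ⟹ `(π ^ j * z) ^ m = π ^ (j (m - 1)) * o ∈ O` ⟹ `π ^ j * z` integral over `O` (root of `X ^ m - C _`)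
⟹ `InR (π ^ j * z)` ⟹ `InR z`. -/
theorem InR.root (hn : Normal F π) {m : ℕ} (hm : 0 < m) (h : InR π (z ^ m)) : InR π z := by
  obtain ⟨j, o, e⟩ := h
  by_cases hπ : algebraMap O F π = 0
  · exact ⟨1, 0, by rw [hπ]; simp⟩
  have h1 : (algebraMap O F π ^ j * z) ^ m = algebraMap O F (π ^ (j * (m - 1)) * o) := by
    obtain ⟨m', rfl⟩ : ∃ m', m = m' + 1 := ⟨m - 1, by omega⟩
    rw [map_mul, map_pow, ← e, mul_pow, Nat.add_sub_cancel, ← mul_assoc, ← pow_mul, ← pow_add,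
      Nat.mul_succ]
  have h2 : IsIntegral O (algebraMap O F π ^ j * z) := by
    refine IsIntegral.of_pow hm ?_
    rw [h1]
    exact isIntegral_algebraMap
  have h3 := (inR_pi_zpow (π := π) (F := F) (-(j : ℤ))).mul (hn _ h2)
  rwa [zpow_neg, zpow_natCast, inv_mul_cancel_left₀ (pow_ne_zero _ hπ)] at h3

/-! ### TASK S44/Loc-IsK -/

variable {m : ℕ} {W y y' : F}

theorem isK_zero (hm : 0 < m) : IsK π m W (0 : F) := by
  rw [IsK, zero_pow hm.ne', zero_mul]
  exact inR_zero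

theorem IsK.mul_inR (h : IsK π m W y) (hz : InR π z) : IsK π m W (z * y) := by
  rw [IsK, mul_pow, mul_assoc]
  exact (hz.pow m).mul h

theorem IsK.smul (h : IsK π m W y) (o : O) : IsK π m W (o • y) := by
  rw [Algebra.smul_def]
  exact h.mul_inR (inR_algebraMap o)

/-- **binomial trick**: `(y + y') ^ m * W = ∑ i, C(m,i) * (y ^ i * y' ^ (m - i) * W)` (`add_pow`), and `t := y ^ i * y' ^ (m - i) * W`
(`i ≤ m`) satisfies `t ^ m = (y ^ m * W) ^ i * (y' ^ m * W) ^ (m - i)`, so `InR t` by `InR.root`. -/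
theorem IsK.add (hn : Normal F π) (hm : 0 < m) (h : IsK π m W y) (h' : IsK π m W y') :
    IsK π m W (y + y') := by
  rw [IsK, add_pow, Finset.sum_mul]
  refine InR.sum _ _ (fun i hi => ?_)
  have hi' : i ≤ m := Nat.lt_succ_iff.mp (Finset.mem_range.mp hi)
  have e : y ^ i * y' ^ (m - i) * (m.choose i : F) * W
      = (m.choose i : F) * (y ^ i * y' ^ (m - i) * W) := by ring
  rw [e]
  refine InR.natCast_mul _ (InR.root hn hm ?_)
  have e2 : (y ^ i * y' ^ (m - i) * W) ^ m = (y ^ m * W) ^ i * (y' ^ m * W) ^ (m - i) := by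
    have hW : W ^ m = W ^ i * W ^ (m - i) := by rw [← pow_add, Nat.add_sub_cancel' hi']
    rw [mul_pow, mul_pow, mul_pow, mul_pow, hW, ← pow_mul, ← pow_mul, ← pow_mul, ← pow_mul,
      mul_comm i m, mul_comm (m - i) m]
    ring
  rw [e2]
  exact (InR.pow h i).mul (InR.pow h' (m - i))

theorem IsK.sum (hn : Normal F π) (hm : 0 < m) {α : Type*} (s : Finset α) (f : α → F)
    (h : ∀ i ∈ s, IsK π m W (f i)) : IsK π m W (∑ i ∈ s, f i) := by
  classical
  induction s using Finset.induction_on with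
  | empty =>
    rw [Finset.sum_empty]
    exact isK_zero hm
  | insert a s ha ih =>
    rw [Finset.sum_insert ha]
    exact (h a (Finset.mem_insert_self a s)).add hn hm
      (ih fun i hi => h i (Finset.mem_insert_of_mem hi))

/-- `(y * y') ^ m = (y ^ m * W) * (y' ^ m * W⁻¹)` if `W ≠ 0`. -/
theorem IsK.mul_inv (hn : Normal F π) (hm : 0 < m) (hW : W ≠ 0) (h : IsK π m W y)
    (h' : IsK π m W⁻¹ y') : InR π (y * y') := by
  refine InR.root hn hm ?_
  have e : (y * y') ^ m = (y ^ m * W) * (y' ^ m * W⁻¹) := by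
    rw [mul_pow]
    field_simp
  rw [e]
  exact InR.mul h h'

/-! ### TASK S44/Loc-Node -/

variable [IsDomain O] [IsFractionRing O F] [IsLocalRing O] {P1 P2 : Ideal O}

/-- `gen`: pick `s ∈ P2 \ P1` (`not_le21`); `s * o ∈ P1 ⊓ P2 = (π)`. -/
theorem Node.locPrin1 (h : Node π P1 P2) : LocPrin P1 π := by
  have hmem : π ∈ P1 ⊓ P2 := by rw [h.inf_eq]; exact Ideal.mem_span_singleton_self π
  refine ⟨h.prime1, h.ne_zero, hmem.1, fun o ho => ?_⟩
  obtain ⟨s, hs2, hs1⟩ := SetLike.not_le_iff_exists.mp h.not_le21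
  refine ⟨s, hs1, ?_⟩
  have h1 : s * o ∈ P1 ⊓ P2 := ⟨P1.mul_mem_left _ ho, P2.mul_mem_right _ hs2⟩
  rw [h.inf_eq] at h1
  exact Ideal.mem_span_singleton.mp h1

theorem Node.locPrin2 (h : Node π P1 P2) : LocPrin P2 π := by
  have hmem : π ∈ P1 ⊓ P2 := by rw [h.inf_eq]; exact Ideal.mem_span_singleton_self π
  refine ⟨h.prime2, h.ne_zero, hmem.2, fun o ho => ?_⟩
  obtain ⟨s, hs1, hs2⟩ := SetLike.not_le_iff_exists.mp h.not_le12
  refine ⟨s, hs2, ?_⟩
  have h1 : s * o ∈ P1 ⊓ P2 := ⟨P1.mul_mem_right _ hs1, P2.mul_mem_left _ ho⟩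
  rw [h.inf_eq] at h1
  exact Ideal.mem_span_singleton.mp h1

theorem Node.symm (h : Node π P1 P2) : Node π P2 P1 :=
  { prime1 := h.prime2
    prime2 := h.prime1
    ne_zero := h.ne_zero
    inf_eq := by rw [inf_comm]; exact h.inf_eq
    sup_eq := by rw [sup_comm]; exact h.sup_eq
    not_le12 := h.not_le21
    not_le21 := h.not_le12
    val1 := h.val2
    val2 := h.val1 }

theorem Node.pi_mem_maximalIdeal (h : Node π P1 P2) : π ∈ IsLocalRing.maximalIdeal O := by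
  rw [← h.sup_eq]
  exact (le_sup_left : P1 ≤ P1 ⊔ P2) h.locPrin1.mem

/-- **(SAT)**  induction on `j` in `π ^ j * z = o`: `s₁ * o = π ^ (j+1) * o₁ ∈ P1` so `o ∈ P1`; same for `P2`; `o = π * o'`. -/
theorem Node.sat (h : Node π P1 P2) (hz : InR π z) (h1 : VGe P1 π 0 z) (h2 : VGe P2 π 0 z) :
    ∃ o : O, algebraMap O F o = z := by
  obtain ⟨j, o, e⟩ := hz
  have hπ : algebraMap O F π ≠ 0 := algebraMap_pi_ne_zero h.locPrin1
  have key : ∀ {P : Ideal O}, LocPrin P π → VGe P π 0 z → ∀ (j : ℕ) (o : O),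
      algebraMap O F π ^ (j + 1) * z = algebraMap O F o → o ∈ P := by
    intro P hP hv j o e
    obtain ⟨s, o₁, hs, e₁⟩ := hv
    rw [zpow_zero, one_mul] at e₁
    have h3 : algebraMap O F (s * o) = algebraMap O F (π ^ (j + 1) * o₁) := by
      rw [map_mul, map_mul, map_pow, ← e, ← e₁]
      ring
    have h4 := IsFractionRing.injective O F h3
    have h5 : s * o ∈ P := by
      rw [h4, pow_succ]
      exact P.mul_mem_right _ (P.mul_mem_left _ hP.mem)
    exact (hP.prime.mem_or_mem h5).resolve_left hs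
  induction j generalizing o with
  | zero => exact ⟨o, by rw [← e, pow_zero, one_mul]⟩
  | succ j ih =>
    have h3 : o ∈ P1 ⊓ P2 := ⟨key h.locPrin1 h1 j o e, key h.locPrin2 h2 j o e⟩
    rw [h.inf_eq] at h3
    obtain ⟨o', rfl⟩ := Ideal.mem_span_singleton.mp h3
    apply ih o'
    apply mul_left_cancel₀ hπ
    rw [← mul_assoc, ← pow_succ', e, map_mul]

/-- units: `z`, `z⁻¹ ∈ O[1/π]`, `v₁ z = v₂ z = 0` ⟹ `z` is a unit of `O`. -/
theorem Node.sat_unit (h : Node π P1 P2) (hz : InR π z) (hz' : InR π z⁻¹) (h1 : VEq P1 π 0 z)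
    (h2 : VEq P2 π 0 z) : ∃ e : Oˣ, algebraMap O F (e : O) = z := by
  have hz0 : z ≠ 0 := h1.ne_zero h.locPrin1
  obtain ⟨a, ha⟩ := h.sat hz h1.vGe h2.vGe
  have h1' := (h1.inv h.locPrin1).vGe
  have h2' := (h2.inv h.locPrin2).vGe
  rw [neg_zero] at h1' h2'
  obtain ⟨b, hb⟩ := h.sat hz' h1' h2'
  have hab : a * b = 1 := by
    apply IsFractionRing.injective O F
    rw [map_mul, ha, hb, map_one, mul_inv_cancel₀ hz0]
  exact ⟨⟨a, b, hab, by rw [mul_comm]; exact hab⟩, ha⟩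

/-- constructor from the classical hypotheses (`O/P_i` DVRs). -/
theorem Node.ofDVR (hπ : π ≠ 0) [P1.IsPrime] [P2.IsPrime] (hne : P1 ≠ P2)
    (hinf : P1 ⊓ P2 = Ideal.span {π}) (hsup : P1 ⊔ P2 = IsLocalRing.maximalIdeal O)
    [IsDiscreteValuationRing (O ⧸ P1)] [IsDiscreteValuationRing (O ⧸ P2)] : Node π P1 P2 := by
  have hval : ∀ (P : Ideal O) [P.IsPrime] [IsDiscreteValuationRing (O ⧸ P)] (a b : O),
      (∃ r, a - r * b ∈ P) ∨ (∃ r, b - r * a ∈ P) := by
    intro P _ _ a b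
    rcases ValuationRing.dvd_total (Ideal.Quotient.mk P a) (Ideal.Quotient.mk P b) with hd | hd
    · right
      obtain ⟨r, hr⟩ := hd
      obtain ⟨r, rfl⟩ := Ideal.Quotient.mk_surjective r
      refine ⟨r, ?_⟩
      rw [← Ideal.Quotient.eq, hr, map_mul, mul_comm]
    · left
      obtain ⟨r, hr⟩ := hd
      obtain ⟨r, rfl⟩ := Ideal.Quotient.mk_surjective r
      refine ⟨r, ?_⟩
      rw [← Ideal.Quotient.eq, hr, map_mul, mul_comm]
  have hnf : ∀ (P : Ideal O) [P.IsPrime] [IsDiscreteValuationRing (O ⧸ P)],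
      P ≠ IsLocalRing.maximalIdeal O := by
    intro P _ _ hP
    have hmax : P.IsMaximal := hP ▸ IsLocalRing.maximalIdeal.isMaximal O
    exact IsDiscreteValuationRing.not_isField (O ⧸ P) ((Ideal.Quotient.maximal_ideal_iff_isField_quotient P).mp hmax)
  exact
  { prime1 := inferInstance
    prime2 := inferInstance
    ne_zero := hπ
    inf_eq := hinf
    sup_eq := hsup
    not_le12 := fun hle => hnf P2 (by rw [← hsup, sup_eq_right.mpr hle])
    not_le21 := fun hle => hnf P1 (by rw [← hsup, sup_eq_left.mpr hle])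
    val1 := hval P1
    val2 := hval P2 }

/-! ### the modules `I_k` -/

/-- `I_k = {y | y ^ m * W ∈ O[1/π], v₁ y ≥ 0, v₂ y ≥ k}`. -/
def Ik (h : Node π P1 P2) (hn : Normal F π) (hm : 0 < m) (W : F) (k : ℤ) : Submodule O F where
  carrier := {y | IsK π m W y ∧ VGe P1 π 0 y ∧ VGe P2 π k y}
  add_mem' := fun ha hb => ⟨ha.1.add hn hm hb.1, ha.2.1.add h.locPrin1 hb.2.1, ha.2.2.add h.locPrin2 hb.2.2⟩
  zero_mem' := ⟨isK_zero hm, vGe_zero h.locPrin1 _, vGe_zero h.locPrin2 _⟩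
  smul_mem' := fun c _ hx => ⟨hx.1.smul c, hx.2.1.smul c, hx.2.2.smul c⟩

theorem mem_Ik (h : Node π P1 P2) (hn : Normal F π) (hm : 0 < m) {k : ℤ} :
    y ∈ Ik h hn hm W k ↔ IsK π m W y ∧ VGe P1 π 0 y ∧ VGe P2 π k y := Iff.rfl

end Fermat.Agent.S44.Loc
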