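import Fermat.Agent.S44.Loc.IkFacts

/-!
# S44 / Loc / Prin : steps (c) and (d): some `I_k` is principal.

TASKS  S44/Loc-Gen (`exists_gen1`), S44/Loc-Jump (`exists_unit1`, `mem_X_smul`, `exists_jump`), S44/Loc-Prin (`eq_span_of_jump`).
-/

set_option autoImplicit false

namespace Fermat.Agent.S44.Loc

variable {O : Type*} [CommRing O] [IsDomain O] [IsLocalRing O] {F : Type*} [Field F] [Algebra O F]
  [IsFractionRing O F] {π : O} {P1 P2 : Ideal O} {m : ℕ} {W : F}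
  (h : Node π P1 P2) (hn : Normal F π) (hm : 0 < m)

/-! ### TASK S44/Loc-Gen -/

include h in
/-- a finitely generated `O`-submodule of `{v₁ ≥ 0}` is generated modulo `{v₁ ≥ 1}` by one element.
`Submodule.fg_induction` with `P N := (∀ z ∈ N, VGe P1 π 0 z) → ∃ y ∈ N, ∀ z ∈ N, ∃ r, VGe P1 π 1 (z - r • y)`.
`span {x}`: `y = x`.  `N₁ ⊔ N₂`: generators `y₁`, `y₂`; `dichotomy1`: if `y₂ ≡ r y₁` take `y₁` (`z = z₁ + z₂ ≡ r₁ y₁ + r₂ r y₁`). -/
theorem exists_gen1 (N : Submodule O F) (hfg : N.FG) (hN : ∀ z ∈ N, VGe P1 π 0 z) :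
    ∃ y ∈ N, ∀ z ∈ N, ∃ r : O, VGe P1 π 1 (z - r • y) := by
  have hP := h.locPrin1
  revert hN
  refine Submodule.fg_induction (motive := fun N _ =>
    (∀ z ∈ N, VGe P1 π 0 z) → ∃ y ∈ N, ∀ z ∈ N, ∃ r : O, VGe P1 π 1 (z - r • y))
    ?_ ?_ N hfg
  · intro x _
    refine ⟨x, Submodule.mem_span_singleton_self x, fun z hz => ?_⟩
    obtain ⟨r, rfl⟩ := Submodule.mem_span_singleton.mp hz
    exact ⟨r, by rw [sub_self]; exact vGe_zero hP 1⟩
  · intro N₁ N₂ _ _ ih₁ ih₂ hN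
    obtain ⟨y₁, hy₁, g₁⟩ := ih₁ (fun z hz => hN z (Submodule.mem_sup_left hz))
    obtain ⟨y₂, hy₂, g₂⟩ := ih₂ (fun z hz => hN z (Submodule.mem_sup_right hz))
    rcases dichotomy1 h (hN y₁ (Submodule.mem_sup_left hy₁)) (hN y₂ (Submodule.mem_sup_right hy₂))
      with ⟨r, hr⟩ | ⟨r, hr⟩
    · refine ⟨y₁, Submodule.mem_sup_left hy₁, fun z hz => ?_⟩
      obtain ⟨z₁, hz₁, z₂, hz₂, rfl⟩ := Submodule.mem_sup.mp hz
      obtain ⟨r₁, hr₁⟩ := g₁ z₁ hz₁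
      obtain ⟨r₂, hr₂⟩ := g₂ z₂ hz₂
      refine ⟨r₁ + r₂ * r, ?_⟩
      have e : z₁ + z₂ - (r₁ + r₂ * r) • y₁
          = (z₁ - r₁ • y₁) + (z₂ - r₂ • y₂) + r₂ • (y₂ - r • y₁) := by
        simp only [Algebra.smul_def, map_add, map_mul]
        ring
      rw [e]
      exact (hr₁.add hP hr₂).add hP (hr.smul r₂)
    · refine ⟨y₂, Submodule.mem_sup_right hy₂, fun z hz => ?_⟩
      obtain ⟨z₁, hz₁, z₂, hz₂, rfl⟩ := Submodule.mem_sup.mp hz
      obtain ⟨r₁, hr₁⟩ := g₁ z₁ hz₁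
      obtain ⟨r₂, hr₂⟩ := g₂ z₂ hz₂
      refine ⟨r₂ + r₁ * r, ?_⟩
      have e : z₁ + z₂ - (r₂ + r₁ * r) • y₂
          = (z₁ - r₁ • y₁) + (z₂ - r₂ • y₂) + r₁ • (y₁ - r • y₂) := by
        simp only [Algebra.smul_def, map_add, map_mul]
        ring
      rw [e]
      exact (hr₁.add hP hr₂).add hP (hr.smul r₁)

/-! ### TASK S44/Loc-Jump -/

/-- the auxiliary function `X`: a unit of `O[1/π]`, `v₁ X = 0`, `v₂ X = T ≥ 1`. -/
structure XData (F : Type*) [Field F] [Algebra O F] (π : O) (P1 P2 : Ideal O) (X : O) (T : ℕ) : Prop where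
  pos : 0 < T
  notMem1 : X ∉ P1
  v2 : VEq P2 π (T : ℤ) (algebraMap O F X)
  inv : InR π (algebraMap O F X)⁻¹

variable {X : O} {T : ℕ}

/-- (C0) `I_0` contains an element with `v₁ = 0`.  From `InvK` some `a i ≠ 0`, `IsK`.  `v₁ a = e₁`, `v₂ a = e₂` (`exists_vEq`).
`y := π ^ (-e₁) * X ^ n * a`, `n := (e₁ - e₂).toNat`: `v₁ y = 0`, `v₂ y = e₂ - e₁ + n T ≥ 0`. -/
theorem exists_unit1 [IsNoetherianRing O] (hX : XData F π P1 P2 X T) (hinv : InvK π m W) :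
    ∃ y ∈ Ik h hn hm W 0, VEq P1 π 0 y := by
  obtain ⟨r, a, b, ha, -, hsum⟩ := hinv
  obtain ⟨i, hi⟩ : ∃ i, a i ≠ 0 := by
    by_contra hcon
    push Not at hcon
    have : ∑ i, a i * b i = 0 := Finset.sum_eq_zero (fun i _ => by rw [hcon i, zero_mul])
    rw [this] at hsum
    exact zero_ne_one hsum
  obtain ⟨e₁, he₁⟩ := exists_vEq h.locPrin1 hi
  obtain ⟨e₂, he₂⟩ := exists_vEq h.locPrin2 hi
  set n : ℕ := (e₁ - e₂).toNat with hn'
  have hv1 : VEq P1 π 0 (algebraMap O F π ^ (-e₁) * algebraMap O F X ^ n * a i) := by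
    have h1 := ((vEq_pi_zpow (F := F) h.locPrin1 (-e₁)).mul h.locPrin1
      ((vEq_of_notMem (F := F) h.locPrin1 hX.notMem1).pow h.locPrin1 n)).mul h.locPrin1 he₁
    have e : -e₁ + (n : ℤ) * 0 + e₁ = 0 := by ring
    rwa [e] at h1
  have hv2 : VGe P2 π 0 (algebraMap O F π ^ (-e₁) * algebraMap O F X ^ n * a i) := by
    have h1 := ((vEq_pi_zpow (F := F) h.locPrin2 (-e₁)).mul h.locPrin2
      (hX.v2.pow h.locPrin2 n)).mul h.locPrin2 he₂
    refine h1.vGe.mono h.locPrin2 ?_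
    have h2 : e₁ - e₂ ≤ (n : ℤ) := Int.self_le_toNat _
    have h3 : (1 : ℤ) ≤ (T : ℤ) := by exact_mod_cast hX.pos
    have h4 : (0 : ℤ) ≤ (n : ℤ) := Int.natCast_nonneg n
    nlinarith
  refine ⟨_, ⟨?_, hv1.vGe, hv2⟩, hv1⟩
  exact (ha i).mul_inR ((inR_pi_zpow (-e₁)).mul ((inR_algebraMap X).pow n))

/-- (C1) `I_{k+T} ⊆ X I_k`: `z := (ι X)⁻¹ * n`. -/
theorem mem_X_smul (hX : XData F π P1 P2 X T) {k : ℤ} {n : F} (hn' : n ∈ Ik h hn hm W (k + T)) :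
    ∃ z ∈ Ik h hn hm W k, n = X • z := by
  have hX0 : algebraMap O F X ≠ 0 := hX.v2.ne_zero h.locPrin2
  refine ⟨(algebraMap O F X)⁻¹ * n, ⟨hn'.1.mul_inR hX.inv, ?_, ?_⟩, ?_⟩
  · have h1 := ((vEq_of_notMem (F := F) h.locPrin1 hX.notMem1).inv h.locPrin1).vGe.mul h.locPrin1
      hn'.2.1
    have e : -(0 : ℤ) + 0 = 0 := by ring
    rwa [e] at h1
  · have h1 := (hX.v2.inv h.locPrin2).vGe.mul h.locPrin2 hn'.2.2
    have e : -(T : ℤ) + (k + T) = k := by ring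
    rwa [e] at h1
  · rw [Algebra.smul_def, mul_inv_cancel_left₀ hX0]

/-- (C) there is a jump.  Put `A k := ∀ z ∈ I_k, ∃ n ∈ I_{k+1}, VGe P1 π 1 (z - n)`.  If `A k` for all `0 ≤ k < T` then (induction)
`∀ z ∈ I_0, ∃ n ∈ I_T, VGe P1 π 1 (z - n)`, so by `mem_X_smul` `∀ z ∈ I_0, ∃ z' ∈ I_0, VGe P1 π 1 (z - X • z')`.  Let `y` be the generator of `I_0`
given by `exists_gen1` (`Ik_fg`): `y ≡ X z'`, `z' ≡ r y`, so `VGe P1 π 1 ((1 - X r) • y)`, `1 - X r` is a unit of `O` (`X ∈ P2 ≤ 𝔪`: `mem_of_vGe_one` after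
`VGe.mono`), so `VGe P1 π 1 y`, so `VGe P1 π 1 z` for ALL `z ∈ I_0`: contradiction with `exists_unit1` (`VEq.not_vGe`).
So `¬ A k` for some `0 ≤ k < T`: `z₀ ∈ I_k` with `∀ n ∈ I_{k+1}, ¬ VGe P1 π 1 (z₀ - n)`.  The generator `y` of `I_k` (`exists_gen1`) has the same property:
if `y ≡ n` then `z₀ ≡ r y ≡ r n`. -/
theorem exists_jump [IsNoetherianRing O] (hX : XData F π P1 P2 X T) (hW : W ≠ 0)
    (hinv : InvK π m W) :
    ∃ (k : ℤ) (y : F), y ∈ Ik h hn hm W k ∧ (∀ z ∈ Ik h hn hm W k, ∃ r : O, VGe P1 π 1 (z - r • y)) ∧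
      ∀ n ∈ Ik h hn hm W (k + 1), ¬ VGe P1 π 1 (y - n) := by
  have hP := h.locPrin1
  have hgen : ∀ k : ℤ, ∃ y ∈ Ik h hn hm W k,
      ∀ z ∈ Ik h hn hm W k, ∃ r : O, VGe P1 π 1 (z - r • y) := fun k =>
    exists_gen1 h (Ik h hn hm W k) (Ik_fg h hn hm hW hinv k) (fun z hz => hz.2.1)
  -- there is a jump
  obtain ⟨j, z₀, hz₀, hz₀'⟩ : ∃ (j : ℕ) (z₀ : F), z₀ ∈ Ik h hn hm W (j : ℤ) ∧
      ∀ n ∈ Ik h hn hm W ((j : ℤ) + 1), ¬ VGe P1 π 1 (z₀ - n) := by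
    by_contra hcon
    push Not at hcon
    have hstep : ∀ j : ℕ, ∀ z ∈ Ik h hn hm W 0, ∃ n ∈ Ik h hn hm W (j : ℤ), VGe P1 π 1 (z - n) := by
      intro j
      induction j with
      | zero =>
        intro z hz
        exact ⟨z, by simpa using hz, by rw [sub_self]; exact vGe_zero hP 1⟩
      | succ j ih =>
        intro z hz
        obtain ⟨n, hn1, hn2⟩ := ih z hz
        obtain ⟨n', hn1', hn2'⟩ := hcon j n hn1
        refine ⟨n', by push_cast; exact hn1', ?_⟩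
        have e : z - n' = (z - n) + (n - n') := by ring
        rw [e]
        exact hn2.add hP hn2'
    obtain ⟨y, hy, hyg⟩ := hgen 0
    obtain ⟨n, hn1, hn2⟩ := hstep T y hy
    obtain ⟨z', hz', rfl⟩ := mem_X_smul h hn hm hX (k := 0) (by rwa [zero_add])
    obtain ⟨r, hr⟩ := hyg z' hz'
    have hXm : X ∈ IsLocalRing.maximalIdeal O := by
      rw [← h.sup_eq]
      refine Ideal.mem_sup_right (mem_of_vGe_one (F := F) h.locPrin2
        (hX.v2.vGe.mono h.locPrin2 ?_))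
      exact_mod_cast hX.pos
    have hu : IsUnit (1 - X * r) :=
      IsLocalRing.isUnit_one_sub_self_of_mem_nonunits _
        ((IsLocalRing.mem_maximalIdeal _).mp (Ideal.mul_mem_right r _ hXm))
    obtain ⟨u, hu⟩ := hu
    have h1 : VGe P1 π 1 ((u : O) • y) := by
      have e : (u : O) • y = (y - X • z') + X • (z' - r • y) := by
        rw [hu]
        simp only [Algebra.smul_def, map_sub, map_mul, map_one]
        ring
      rw [e]
      exact hn2.add hP (hr.smul X)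
    have h2 : VGe P1 π 1 y := by
      have e : y = ((u⁻¹ : Oˣ) : O) • ((u : O) • y) := by
        rw [smul_smul, Units.inv_mul, one_smul]
      rw [e]
      exact h1.smul _
    obtain ⟨y₀, hy₀, hv₀⟩ := exists_unit1 h hn hm hX hinv
    obtain ⟨r₀, hr₀⟩ := hyg y₀ hy₀
    apply hv₀.not_vGe hP (k' := 1) (by norm_num)
    have e : y₀ = (y₀ - r₀ • y) + r₀ • y := by ring
    rw [e]
    exact hr₀.add hP (h2.smul r₀)
  obtain ⟨y, hy, hyg⟩ := hgen (j : ℤ)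
  refine ⟨(j : ℤ), y, hy, hyg, fun n hn1 hn2 => ?_⟩
  obtain ⟨r, hr⟩ := hyg z₀ hz₀
  apply hz₀' (r • n) (Submodule.smul_mem _ r hn1)
  have e : z₀ - r • n = (z₀ - r • y) + r • (y - n) := by
    rw [smul_sub]
    ring
  rw [e]
  exact hr.add hP (hn2.smul r)

/-! ### TASK S44/Loc-Prin -/

/-- (D) at a jump `I_k = O y`.
(1) for all `z ∈ I_k` there is `r₂` with `z - r₂ • y ∈ I_{k+1}`: `dichotomy2`; the right alternative `y - r • z ∈ I_{k+1}`, `r = p₁ + p₂ ∈ 𝔪 = P1 ⊔ P2`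
    (`Submodule.mem_sup`) is impossible: `n := y - r • z + p₂ • z ∈ I_{k+1}` (`smul_mem_Ik_succ`) and `y - n = p₁ • z` has `v₁ ≥ 1`.
(2) `z ∈ I_k`: `r₁` with `VGe P1 π 1 (z - r₁ • y)`, `r₂` as in (1).  `r₁ - r₂` is not a unit: otherwise `y = u⁻¹ • ((z - r₂ y) - (z - r₁ y))`, i.e.
    `n := u⁻¹ • (z - r₂ • y) ∈ I_{k+1}`, `y - n = - u⁻¹ • (z - r₁ • y)` has `v₁ ≥ 1`.  So `r₁ - r₂ = p₁ + p₂`; `r := r₁ - p₁ = r₂ + p₂`;
    `z - r • y ∈ I_{k+1}` and `VGe P1 π 1`: `= π • z'`, `z' ∈ I_k` (`exists_pi_smul`).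
(3) Nakayama: `Submodule.le_of_le_smul_of_le_jacobson_bot` with `I = span {π}` (or `𝔪`), `N = span {y}`, `N' = I_k` (f.g.). -/
theorem eq_span_of_jump {k : ℤ} {y : F} (hfg : (Ik h hn hm W k).FG) (hy : y ∈ Ik h hn hm W k)
    (hgen : ∀ z ∈ Ik h hn hm W k, ∃ r : O, VGe P1 π 1 (z - r • y))
    (hjump : ∀ n ∈ Ik h hn hm W (k + 1), ¬ VGe P1 π 1 (y - n)) :
    ∀ z ∈ Ik h hn hm W k, ∃ r : O, z = r • y := by
  have hP1 : LocPrin P1 π := h.locPrin1
  -- step (1)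
  have step1 : ∀ z ∈ Ik h hn hm W k, ∃ r₂ : O, z - r₂ • y ∈ Ik h hn hm W (k + 1) := by
    intro z hz
    rcases dichotomy2 h hn hm hy hz with hl | ⟨r, hr, hyr⟩
    · exact hl
    · exfalso
      rw [← h.sup_eq] at hr
      obtain ⟨p₁, hp₁, p₂, hp₂, rfl⟩ := Submodule.mem_sup.mp hr
      have hmem : y - (p₁ + p₂) • z + p₂ • z ∈ Ik h hn hm W (k + 1) :=
        Submodule.add_mem _ hyr (smul_mem_Ik_succ h hn hm hp₂ hz)
      refine hjump _ hmem ?_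
      have e : y - (y - (p₁ + p₂) • z + p₂ • z) = p₁ • z := by
        rw [add_smul]; abel
      rw [e]
      have := VGe.smul_of_mem hP1 hz.2.1 hp₁
      simpa using this
  -- step (2)
  have step2 : ∀ z ∈ Ik h hn hm W k, ∃ r : O, ∃ z' ∈ Ik h hn hm W k, z - r • y = π • z' := by
    intro z hz
    obtain ⟨r₁, hr₁⟩ := hgen z hz
    obtain ⟨r₂, hr₂⟩ := step1 z hz
    have hnu : r₁ - r₂ ∈ IsLocalRing.maximalIdeal O := by
      rw [IsLocalRing.mem_maximalIdeal, mem_nonunits_iff]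
      intro hu
      obtain ⟨u, hu⟩ := hu
      have hmem : ((u⁻¹ : Oˣ) : O) • (z - r₂ • y) ∈ Ik h hn hm W (k + 1) :=
        Submodule.smul_mem _ _ hr₂
      refine hjump _ hmem ?_
      have e : y - ((u⁻¹ : Oˣ) : O) • (z - r₂ • y) = ((u⁻¹ : Oˣ) : O) • (-(z - r₁ • y)) := by
        have h1 : y = ((u⁻¹ : Oˣ) : O) • ((u : O) • y) := by
          rw [smul_smul, Units.inv_mul, one_smul]
        have h2 : (u : O) • y - (z - r₂ • y) = -(z - r₁ • y) := by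
          rw [hu, sub_smul]; abel
        rw [← h2, smul_sub _ ((u : O) • y), ← h1]
      rw [e]
      exact hr₁.neg.smul _
    rw [← h.sup_eq] at hnu
    obtain ⟨p₁, hp₁, p₂, hp₂, hp⟩ := Submodule.mem_sup.mp hnu
    have hr : r₁ - p₁ = r₂ + p₂ := by linear_combination -hp
    have hmem : z - (r₁ - p₁) • y ∈ Ik h hn hm W (k + 1) := by
      have e : z - (r₁ - p₁) • y = (z - r₂ • y) - p₂ • y := by
        rw [hr, add_smul]; abel
      rw [e]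
      exact Submodule.sub_mem _ hr₂ (smul_mem_Ik_succ h hn hm hp₂ hy)
    have hv : VGe P1 π 1 (z - (r₁ - p₁) • y) := by
      have e : z - (r₁ - p₁) • y = (z - r₁ • y) + p₁ • y := by
        rw [sub_smul]; abel
      rw [e]
      have := VGe.smul_of_mem hP1 hy.2.1 hp₁
      exact hr₁.add hP1 (by simpa using this)
    obtain ⟨z', hz', e⟩ := exists_pi_smul h hn hm hmem hv
    exact ⟨r₁ - p₁, z', hz', e⟩
  -- step (3): Nakayama
  have hle : Ik h hn hm W k ≤ Submodule.span O {y} := by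
    apply Submodule.le_of_le_smul_of_le_jacobson_bot (I := IsLocalRing.maximalIdeal O) hfg
    · rw [IsLocalRing.jacobson_eq_maximalIdeal ⊥ bot_ne_top]
    · intro z hz
      obtain ⟨r, z', hz', e⟩ := step2 z hz
      have e' : z = r • y + π • z' := by rw [← e]; abel
      rw [e']
      exact Submodule.add_mem_sup (Submodule.smul_mem _ _ (Submodule.mem_span_singleton_self y))
        (Submodule.smul_mem_smul h.pi_mem_maximalIdeal hz')
  intro z hz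
  obtain ⟨r, hr⟩ := Submodule.mem_span_singleton.mp (hle hz)
  exact ⟨r, hr.symm⟩

end Fermat.Agent.S44.Loc
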