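import Fermat.Agent.S44.Loc.Smooth

/-!
# S44 / Loc / RC : closure properties of `InvK`, refined conclusions, and the corollary (RC) of #1785.

TASKS  S44/Loc-InvK (`invK_one`, `InvK.mul`, `InvK.pow`, `InvK.mul_unit`; model: `Fermat/Agent/SS/G2/Twist.lean`, `InvK.mul`, `InvK.pow` there).
-/

set_option autoImplicit false

namespace Fermat.Agent.S44.Loc

variable {O : Type*} [CommRing O] {F : Type*} [Field F] [Algebra O F] {π : O} {m : ℕ} {W W' : F}

/-! ### TASK S44/Loc-InvK -/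

/-- `InvK` from a family indexed by an arbitrary finite type. -/
theorem InvK.of_fintype {ι : Type*} [Fintype ι] (a b : ι → F) (ha : ∀ i, IsK π m W (a i))
    (hb : ∀ i, IsK π m W⁻¹ (b i)) (hab : ∑ i, a i * b i = 1) : InvK π m W := by
  refine ⟨Fintype.card ι, a ∘ (Fintype.equivFin ι).symm, b ∘ (Fintype.equivFin ι).symm,
    fun i => ha _, fun i => hb _, ?_⟩
  rw [← hab]
  exact Equiv.sum_comp (Fintype.equivFin ι).symm (fun i => a i * b i)

theorem invK_one : InvK π m (1 : F) := by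
  refine ⟨1, fun _ => 1, fun _ => 1, fun _ => ?_, fun _ => ?_, by simp⟩
  · rw [IsK, one_pow, mul_one]; exact inR_one
  · rw [IsK, one_pow, inv_one, mul_one]; exact inR_one

/-- index set `Fin r × Fin r'`, `a (i,j) = a i * a' j`, `b (i,j) = b i * b' j`. -/
theorem InvK.mul (h : InvK π m W) (h' : InvK π m W') : InvK π m (W * W') := by
  obtain ⟨r, a, b, ha, hb, hab⟩ := h
  obtain ⟨r', a', b', ha', hb', hab'⟩ := h'
  refine InvK.of_fintype (ι := Fin r × Fin r') (fun x => a x.1 * a' x.2) (fun x => b x.1 * b' x.2)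
    (fun x => ?_) (fun x => ?_) ?_
  · have e : (a x.1 * a' x.2) ^ m * (W * W') = (a x.1 ^ m * W) * (a' x.2 ^ m * W') := by
      rw [mul_pow]; ring
    rw [IsK, e]
    exact InR.mul (ha _) (ha' _)
  · have e : (b x.1 * b' x.2) ^ m * (W * W')⁻¹ = (b x.1 ^ m * W⁻¹) * (b' x.2 ^ m * W'⁻¹) := by
      rw [mul_pow, mul_inv]; ring
    rw [IsK, e]
    exact InR.mul (hb _) (hb' _)
  · rw [Fintype.sum_prod_type]
    have e : ∀ i j, a i * a' j * (b i * b' j) = (a i * b i) * (a' j * b' j) := fun i j => by ring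
    simp only [e, ← Finset.mul_sum, hab', mul_one, hab]

theorem InvK.pow (h : InvK π m W) (n : ℕ) : InvK π m (W ^ n) := by
  induction n with
  | zero => rw [pow_zero]; exact invK_one
  | succ e ih => rw [pow_succ]; exact ih.mul h

/-- same `a`, `b`. -/
theorem InvK.mul_unit {ε : F} (h : InvK π m W) (hε : InR π ε) (hε' : InR π ε⁻¹) :
    InvK π m (W * ε) := by
  obtain ⟨r, a, b, ha, hb, hab⟩ := h
  refine ⟨r, a, b, fun i => ?_, fun i => ?_, hab⟩
  · rw [IsK, ← mul_assoc]; exact InR.mul (ha i) hε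
  · rw [IsK, mul_inv, ← mul_assoc]; exact InR.mul (hb i) hε'

variable [IsDomain O] [IsLocalRing O] [IsFractionRing O F] {P1 P2 : Ideal O}

/-- the `y` of `locNode` / `locSmooth` automatically has valuation `0`. -/
theorem vEq_zero_of_pow_mul [IsNoetherianRing O] {P : Ideal O} (hP : LocPrin P π) (hm : 0 < m)
    (hW : VEq P π 0 W) {y : F} (hy : y ≠ 0) {e : Oˣ} (he : y ^ m * W = algebraMap O F (e : O)) :
    VEq P π 0 y := by
  obtain ⟨c, hc⟩ := exists_vEq hP hy
  have h1 : VEq P π (m * c + 0) (y ^ m * W) := (hc.pow hP m).mul hP hW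
  have h2 : VEq P π 0 (y ^ m * W) := by
    rw [he]
    refine vEq_of_notMem hP ?_
    intro hmem
    exact hP.prime.ne_top (Ideal.eq_top_of_isUnit_mem _ hmem e.isUnit)
  have h3 := h1.unique hP h2
  have hc0 : c = 0 := by
    have hm' : (m : ℤ) ≠ 0 := by exact_mod_cast hm.ne'
    have : (m : ℤ) * c = 0 := by linarith
    exact (mul_eq_zero.1 this).resolve_left hm'
  rwa [hc0] at hc

/-- **(RC)**: `u` with `InvK`, `v₁ u = A`, `v₂ u = B`: `u ^ T * X ^ (A - B) * π ^ (- T A)` is `unit * (m-th power)⁻¹`, with `v₁ y = v₂ y = 0`. -/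
theorem rc [IsNoetherianRing O] (h : Node π P1 P2) (hn : Normal F π) (hm : 0 < m)
    {X : O} {T : ℕ} (hX : XData F π P1 P2 X T) (hmT : Nat.Coprime m T) {u : F} {A B : ℤ}
    (hu1 : VEq P1 π A u) (hu2 : VEq P2 π B u) (hinv : InvK π m u) :
    ∃ (y : F) (e : Oˣ), VEq P1 π 0 y ∧ VEq P2 π 0 y ∧
      y ^ m * (u ^ T * algebraMap O F X ^ (A - B) * algebraMap O F π ^ (-(T * A)))
        = algebraMap O F (e : O) := by
  have hP1 := h.locPrin1
  have hP2 := h.locPrin2
  have hX1 : VEq P1 π 0 (algebraMap O F X) := vEq_of_notMem hP1 hX.notMem1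
  have hXin : InR π (algebraMap O F X) := inR_algebraMap X
  set W := u ^ T * algebraMap O F X ^ (A - B) * algebraMap O F π ^ (-(T * A)) with hW
  have hW1 : VEq P1 π 0 W := by
    have := ((hu1.pow hP1 T).mul hP1 (hX1.zpow hP1 (A - B))).mul hP1 (vEq_pi_zpow hP1 (-(T * A)))
    have e : (T : ℤ) * A + (A - B) * 0 + -(T * A) = 0 := by ring
    rwa [e] at this
  have hW2 : VEq P2 π 0 W := by
    have := ((hu2.pow hP2 T).mul hP2 (hX.v2.zpow hP2 (A - B))).mul hP2 (vEq_pi_zpow hP2 (-(T * A)))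
    have e : (T : ℤ) * B + (A - B) * T + -(T * A) = 0 := by ring
    rwa [e] at this
  have hinvW : InvK π m W := by
    refine ((hinv.pow T).mul_unit (hXin.zpow hX.inv _) ?_).mul_unit (inR_pi_zpow _) ?_
    · rw [← zpow_neg]; exact hXin.zpow hX.inv _
    · rw [← zpow_neg]; exact inR_pi_zpow _
  obtain ⟨y, e, hy, he⟩ := locNode h hn hm hX hmT hW1 hW2 hinvW
  exact ⟨y, e, vEq_zero_of_pow_mul hP1 hm hW1 hy he, vEq_zero_of_pow_mul hP2 hm hW2 hy he, he⟩

end Fermat.Agent.S44.Loc
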