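import Fermat.Agent.S44.Loc.Main

/-!
# S44 / Loc / Smooth : **LocSmooth** (the same statement at a smooth point of the special fibre; no `X`).

`O` a noetherian local domain, `F = Frac O`, `π ≠ 0`, `P = (π)` prime, `O/π` a valuation ring (elementwise `val`), `O[1/π]` integrally closed,
`W ∈ F`, `v W = 0`, `InvK π m W`.   THEN `∃ y ≠ 0, y ^ m * W ∈ Oˣ`.

PROOF.  `I := {y | IsK π m W y, v y ≥ 0}`, f.g.; `y` a generator modulo `{v ≥ 1}`; `z - r y = π z'`, `z' ∈ I`; Nakayama: `I = O y`; `I` contains an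
element with `v = 0`, so `v y = 0`; `y⁻¹ ∈ I_K(W⁻¹)` as in `isK_inv_of_span`; `u = y ^ m * W` is a unit of `O[1/π]` with `v u = 0`: unit of `O` by (SAT).

TASKS  S44/Loc-SmA (`locPrin`, `sat`, `sat_unit`, `ofDVR`), S44/Loc-SmB (`exists_pow_mul_mem_I0`, `I0_fg`, `exists_unit0`),
       S44/Loc-SmC (`exists_gen0`, `eq_span0`), S44/Loc-SmD (`isK_inv_of_span0`).  All are simplified copies of the `Node` versions
       (`Node.sat`, `exists_pow_mul_mem_Ik`, `exists_denominator`+`Ik_fg`, `exists_unit1`, `dichotomy1`+`exists_gen1`, `eq_span_of_jump` (3), `isK_inv_of_span`):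
       copy the landed proofs and delete the `P2` half.
-/

set_option autoImplicit false

namespace Fermat.Agent.S44.Loc

variable {O : Type*} [CommRing O] [IsDomain O] [IsLocalRing O] {F : Type*} [Field F] [Algebra O F]
  [IsFractionRing O F] {π : O} {m : ℕ} {W : F}

/-- the local ring of a smooth point of the special fibre. -/
structure Smooth (π : O) : Prop where
  prime : (Ideal.span {π}).IsPrime
  ne_zero : π ≠ 0
  val : ∀ a b : O, (∃ r, π ∣ a - r * b) ∨ (∃ r, π ∣ b - r * a)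

/-! ### TASK S44/Loc-SmA -/

theorem Smooth.locPrin (h : Smooth π) : LocPrin (Ideal.span {π}) π := by
  refine ⟨h.prime, h.ne_zero, Ideal.mem_span_singleton_self π, fun o ho => ?_⟩
  refine ⟨1, (Ideal.ne_top_iff_one _).mp h.prime.ne_top, ?_⟩
  rw [one_mul]
  exact Ideal.mem_span_singleton.mp ho

theorem Smooth.pi_mem_maximalIdeal (h : Smooth π) : π ∈ IsLocalRing.maximalIdeal O := by
  rw [IsLocalRing.mem_maximalIdeal, mem_nonunits_iff]
  intro hu
  exact h.prime.ne_top (Ideal.span_singleton_eq_top.mpr hu)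

theorem Smooth.sat (h : Smooth π) {z : F} (hz : InR π z) (h1 : VGe (Ideal.span {π}) π 0 z) :
    ∃ o : O, algebraMap O F o = z := by
  obtain ⟨j, o, e⟩ := hz
  have hP := h.locPrin
  have hπ : algebraMap O F π ≠ 0 := algebraMap_pi_ne_zero hP
  have key : ∀ (j : ℕ) (o : O),
      algebraMap O F π ^ (j + 1) * z = algebraMap O F o → o ∈ Ideal.span {π} := by
    intro j o e
    obtain ⟨s, o₁, hs, e₁⟩ := h1
    rw [zpow_zero, one_mul] at e₁
    have h3 : algebraMap O F (s * o) = algebraMap O F (π ^ (j + 1) * o₁) := by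
      rw [map_mul, map_mul, map_pow, ← e, ← e₁]
      ring
    have h4 := IsFractionRing.injective O F h3
    have h5 : s * o ∈ Ideal.span {π} := by
      rw [h4, pow_succ]
      exact Ideal.mul_mem_right _ _ (Ideal.mul_mem_left _ _ hP.mem)
    exact (hP.prime.mem_or_mem h5).resolve_left hs
  induction j generalizing o with
  | zero => exact ⟨o, by rw [← e, pow_zero, one_mul]⟩
  | succ j ih =>
    obtain ⟨o', rfl⟩ := Ideal.mem_span_singleton.mp (key j o e)
    apply ih o'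
    apply mul_left_cancel₀ hπ
    rw [← mul_assoc, ← pow_succ', e, map_mul]

theorem Smooth.sat_unit (h : Smooth π) {z : F} (hz : InR π z) (hz' : InR π z⁻¹)
    (h1 : VEq (Ideal.span {π}) π 0 z) : ∃ e : Oˣ, algebraMap O F (e : O) = z := by
  have hz0 : z ≠ 0 := h1.ne_zero h.locPrin
  obtain ⟨a, ha⟩ := h.sat hz h1.vGe
  have h1' := (h1.inv h.locPrin).vGe
  rw [neg_zero] at h1'
  obtain ⟨b, hb⟩ := h.sat hz' h1'
  have hab : a * b = 1 := by
    apply IsFractionRing.injective O F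
    rw [map_mul, ha, hb, map_one, mul_inv_cancel₀ hz0]
  exact ⟨⟨a, b, hab, by rw [mul_comm]; exact hab⟩, ha⟩

theorem Smooth.ofDVR (hπ : π ≠ 0) [(Ideal.span {π}).IsPrime]
    [IsDiscreteValuationRing (O ⧸ Ideal.span {π})] : Smooth π := by
  refine ⟨inferInstance, hπ, fun a b => ?_⟩
  rcases ValuationRing.dvd_total (Ideal.Quotient.mk (Ideal.span {π}) a)
    (Ideal.Quotient.mk (Ideal.span {π}) b) with hd | hd
  · right
    obtain ⟨r, hr⟩ := hd
    obtain ⟨r, rfl⟩ := Ideal.Quotient.mk_surjective r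
    refine ⟨r, Ideal.mem_span_singleton.mp ?_⟩
    rw [← Ideal.Quotient.eq, hr, map_mul, mul_comm]
  · left
    obtain ⟨r, hr⟩ := hd
    obtain ⟨r, rfl⟩ := Ideal.Quotient.mk_surjective r
    refine ⟨r, Ideal.mem_span_singleton.mp ?_⟩
    rw [← Ideal.Quotient.eq, hr, map_mul, mul_comm]

/-- `I = {y | y ^ m * W ∈ O[1/π], v y ≥ 0}`. -/
def I0 (h : Smooth π) (hn : Normal F π) (hm : 0 < m) (W : F) : Submodule O F where
  carrier := {y | IsK π m W y ∧ VGe (Ideal.span {π}) π 0 y}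
  add_mem' := fun ha hb => ⟨ha.1.add hn hm hb.1, ha.2.add h.locPrin hb.2⟩
  zero_mem' := ⟨isK_zero hm, vGe_zero h.locPrin _⟩
  smul_mem' := fun c _ hx => ⟨hx.1.smul c, hx.2.smul c⟩

variable (h : Smooth π) (hn : Normal F π) (hm : 0 < m)

/-! ### TASK S44/Loc-SmB -/

theorem exists_pow_mul_mem_I0 [IsNoetherianRing O] {a : F} (ha : IsK π m W a) :
    ∃ j₀ : ℕ, ∀ j : ℕ, j₀ ≤ j → algebraMap O F π ^ j * a ∈ I0 h hn hm W := by
  by_cases ha0 : a = 0
  · subst ha0
    exact ⟨0, fun j _ => by rw [mul_zero]; exact (I0 h hn hm W).zero_mem⟩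
  obtain ⟨k₁, h₁⟩ := exists_vEq h.locPrin ha0
  refine ⟨(-k₁).toNat, fun j hj => ⟨?_, ?_⟩⟩
  · have := ha.mul_inR (inR_pi_zpow (π := π) (F := F) (j : ℤ))
    rwa [zpow_natCast] at this
  · have h3 := (vGe_pi_zpow_mul_iff h.locPrin (j : ℤ)).mpr h₁.vGe
    rw [zpow_natCast] at h3
    exact h3.mono h.locPrin (by omega)

theorem Smooth_exists_denominator [IsNoetherianRing O] (hW : W ≠ 0) (hinv : InvK π m W) :
    ∃ b : F, b ≠ 0 ∧ ∀ y ∈ I0 h hn hm W, ∃ o : O, algebraMap O F o = y * b := by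
  obtain ⟨r, a, b, ha, hb, hsum⟩ := hinv
  obtain ⟨i, hi⟩ : ∃ i, b i ≠ 0 := by
    by_contra hcon
    push Not at hcon
    have : ∑ i, a i * b i = 0 := Finset.sum_eq_zero fun i _ => by rw [hcon i, mul_zero]
    rw [this] at hsum
    exact zero_ne_one hsum
  obtain ⟨j₀, hj₀⟩ := exists_pow_mul_mem_I0 h hn hm (W := W⁻¹) (hb i)
  have hπ : algebraMap O F π ≠ 0 := algebraMap_pi_ne_zero h.locPrin
  have hmem := hj₀ j₀ le_rfl
  refine ⟨algebraMap O F π ^ j₀ * b i, mul_ne_zero (pow_ne_zero _ hπ) hi, fun y hy => ?_⟩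
  refine h.sat (hy.1.mul_inv hn hm hW hmem.1) ?_
  have := hy.2.mul h.locPrin hmem.2
  rwa [add_zero] at this

theorem I0_fg [IsNoetherianRing O] (hW : W ≠ 0) (hinv : InvK π m W) : (I0 h hn hm W).FG := by
  obtain ⟨b, hb, hden⟩ := Smooth_exists_denominator h hn hm hW hinv
  have hle : I0 h hn hm W ≤ Submodule.span O {b⁻¹} := by
    intro y hy
    obtain ⟨o, ho⟩ := hden y hy
    rw [Submodule.mem_span_singleton]
    refine ⟨o, ?_⟩
    rw [Algebra.smul_def, ho, mul_assoc, mul_inv_cancel₀ hb, mul_one]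
  have hN : IsNoetherian O (Submodule.span O ({b⁻¹} : Set F)) :=
    isNoetherian_span_of_finite O (Set.finite_singleton _)
  have h1 := (IsNoetherian.noetherian (Submodule.comap (Submodule.span O ({b⁻¹} : Set F)).subtype
    (I0 h hn hm W))).map (Submodule.span O ({b⁻¹} : Set F)).subtype
  rwa [Submodule.map_comap_subtype, inf_eq_right.mpr hle] at h1

theorem exists_unit0 [IsNoetherianRing O] (hinv : InvK π m W) :
    ∃ y ∈ I0 h hn hm W, VEq (Ideal.span {π}) π 0 y := by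
  obtain ⟨r, a, b, ha, -, hsum⟩ := hinv
  obtain ⟨i, hi⟩ : ∃ i, a i ≠ 0 := by
    by_contra hcon
    push Not at hcon
    have : ∑ i, a i * b i = 0 := Finset.sum_eq_zero (fun i _ => by rw [hcon i, zero_mul])
    rw [this] at hsum
    exact zero_ne_one hsum
  obtain ⟨e₁, he₁⟩ := exists_vEq h.locPrin hi
  have hv1 : VEq (Ideal.span {π}) π 0 (algebraMap O F π ^ (-e₁) * a i) := by
    have h1 := (vEq_pi_zpow (F := F) h.locPrin (-e₁)).mul h.locPrin he₁
    have e : -e₁ + e₁ = 0 := by ring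
    rwa [e] at h1
  exact ⟨_, ⟨(ha i).mul_inR (inR_pi_zpow (-e₁)), hv1.vGe⟩, hv1⟩

/-! ### TASK S44/Loc-SmC -/

include h in
theorem Smooth_dichotomy {y z : F} (hy : VGe (Ideal.span {π}) π 0 y)
    (hz : VGe (Ideal.span {π}) π 0 z) :
    (∃ r : O, VGe (Ideal.span {π}) π 1 (z - r • y)) ∨
      (∃ r : O, VGe (Ideal.span {π}) π 1 (y - r • z)) := by
  obtain ⟨s, o, hs, e⟩ := hy
  obtain ⟨s', o', hs', e'⟩ := hz
  rw [zpow_zero, one_mul] at e e'
  have hss : s * s' ∉ Ideal.span {π} := fun hmem => (h.prime.mem_or_mem hmem).elim hs hs'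
  rcases h.val (o' * s) (o * s') with ⟨r, hr⟩ | ⟨r, hr⟩
  · left
    refine ⟨r, vGe_of_algebraMap_mul h.locPrin hss ?_⟩
    have e3 : algebraMap O F (s * s') * (z - r • y) = algebraMap O F (o' * s - r * (o * s')) := by
      rw [Algebra.smul_def, map_sub, map_mul, map_mul, map_mul, map_mul, ← e, ← e']
      ring
    rw [e3]
    exact vGe_one_of_mem h.locPrin (Ideal.mem_span_singleton.mpr hr)
  · right
    refine ⟨r, vGe_of_algebraMap_mul h.locPrin hss ?_⟩
    have e3 : algebraMap O F (s * s') * (y - r • z) = algebraMap O F (o * s' - r * (o' * s)) := by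
      rw [Algebra.smul_def, map_sub, map_mul, map_mul, map_mul, map_mul, ← e, ← e']
      ring
    rw [e3]
    exact vGe_one_of_mem h.locPrin (Ideal.mem_span_singleton.mpr hr)

include h in
theorem Smooth_exists_gen (N : Submodule O F) (hfg : N.FG)
    (hN : ∀ z ∈ N, VGe (Ideal.span {π}) π 0 z) :
    ∃ y ∈ N, ∀ z ∈ N, ∃ r : O, VGe (Ideal.span {π}) π 1 (z - r • y) := by
  have hP := h.locPrin
  revert hN
  refine Submodule.fg_induction (motive := fun N _ =>
    (∀ z ∈ N, VGe (Ideal.span {π}) π 0 z) →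
      ∃ y ∈ N, ∀ z ∈ N, ∃ r : O, VGe (Ideal.span {π}) π 1 (z - r • y))
    ?_ ?_ N hfg
  · intro x _
    refine ⟨x, Submodule.mem_span_singleton_self x, fun z hz => ?_⟩
    obtain ⟨r, rfl⟩ := Submodule.mem_span_singleton.mp hz
    exact ⟨r, by rw [sub_self]; exact vGe_zero hP 1⟩
  · intro N₁ N₂ _ _ ih₁ ih₂ hN
    obtain ⟨y₁, hy₁, g₁⟩ := ih₁ (fun z hz => hN z (Submodule.mem_sup_left hz))
    obtain ⟨y₂, hy₂, g₂⟩ := ih₂ (fun z hz => hN z (Submodule.mem_sup_right hz))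
    rcases Smooth_dichotomy h (hN y₁ (Submodule.mem_sup_left hy₁))
      (hN y₂ (Submodule.mem_sup_right hy₂)) with ⟨r, hr⟩ | ⟨r, hr⟩
    · refine ⟨y₁, Submodule.mem_sup_left hy₁, fun z hz => ?_⟩
      obtain ⟨z₁, hz₁, z₂, hz₂, rfl⟩ := Submodule.mem_sup.mp hz
      obtain ⟨r₁, hr₁⟩ := g₁ z₁ hz₁
      obtain ⟨r₂, hr₂⟩ := g₂ z₂ hz₂
      refine ⟨r₁ + r₂ * r, ?_⟩
      have e : z₁ + z₂ - (r₁ + r₂ * r) • y₁
          = (z₁ - r₁ • y₁) + (z₂ - r₂ • y₂) + r₂ • (y₂ - r • y₁) := by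
        simp only [Algebra.smul_def, map_add, map_mul]
        ring
      rw [e]
      exact (hr₁.add hP hr₂).add hP (hr.smul r₂)
    · refine ⟨y₂, Submodule.mem_sup_right hy₂, fun z hz => ?_⟩
      obtain ⟨z₁, hz₁, z₂, hz₂, rfl⟩ := Submodule.mem_sup.mp hz
      obtain ⟨r₁, hr₁⟩ := g₁ z₁ hz₁
      obtain ⟨r₂, hr₂⟩ := g₂ z₂ hz₂
      refine ⟨r₂ + r₁ * r, ?_⟩
      have e : z₁ + z₂ - (r₂ + r₁ * r) • y₂
          = (z₁ - r₁ • y₁) + (z₂ - r₂ • y₂) + r₁ • (y₁ - r • y₂) := by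
        simp only [Algebra.smul_def, map_add, map_mul]
        ring
      rw [e]
      exact (hr₁.add hP hr₂).add hP (hr.smul r₁)

theorem exists_gen0 (hfg : (I0 h hn hm W).FG) :
    ∃ y ∈ I0 h hn hm W, ∀ z ∈ I0 h hn hm W, ∃ r : O, VGe (Ideal.span {π}) π 1 (z - r • y) :=
  Smooth_exists_gen h (I0 h hn hm W) hfg (fun _ hz => hz.2)

theorem eq_span0 (hfg : (I0 h hn hm W).FG) {y : F} (hy : y ∈ I0 h hn hm W)
    (hgen : ∀ z ∈ I0 h hn hm W, ∃ r : O, VGe (Ideal.span {π}) π 1 (z - r • y)) :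
    ∀ z ∈ I0 h hn hm W, ∃ r : O, z = r • y := by
  have hP := h.locPrin
  have hπ : algebraMap O F π ≠ 0 := algebraMap_pi_ne_zero hP
  have step : ∀ z ∈ I0 h hn hm W, ∃ r : O, ∃ z' ∈ I0 h hn hm W, z - r • y = π • z' := by
    intro z hz
    obtain ⟨r, hr⟩ := hgen z hz
    have hmem : z - r • y ∈ I0 h hn hm W := sub_mem hz (Submodule.smul_mem _ r hy)
    have hzz : z - r • y
        = algebraMap O F π ^ (1 : ℤ) * ((algebraMap O F π) ^ (-1 : ℤ) * (z - r • y)) := by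
      rw [← mul_assoc, ← zpow_add₀ hπ]; simp
    refine ⟨r, (algebraMap O F π) ^ (-1 : ℤ) * (z - r • y),
      ⟨hmem.1.mul_inR (inR_pi_zpow (-1)), ?_⟩, ?_⟩
    · rw [← vGe_pi_zpow_mul_iff hP 1, ← hzz, zero_add]
      exact hr
    · rw [Algebra.smul_def π]
      conv_lhs => rw [hzz]
      rw [zpow_one]
  have hle : I0 h hn hm W ≤ Submodule.span O {y} := by
    apply Submodule.le_of_le_smul_of_le_jacobson_bot (I := IsLocalRing.maximalIdeal O) hfg
    · rw [IsLocalRing.jacobson_eq_maximalIdeal ⊥ bot_ne_top]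
    · intro z hz
      obtain ⟨r, z', hz', e⟩ := step z hz
      have e' : z = r • y + π • z' := by rw [← e]; abel
      rw [e']
      exact Submodule.add_mem_sup (Submodule.smul_mem _ _ (Submodule.mem_span_singleton_self y))
        (Submodule.smul_mem_smul h.pi_mem_maximalIdeal hz')
  intro z hz
  obtain ⟨r, hr⟩ := Submodule.mem_span_singleton.mp (hle hz)
  exact ⟨r, hr.symm⟩

/-! ### TASK S44/Loc-SmD -/

theorem isK_inv_of_span0 [IsNoetherianRing O] (hinv : InvK π m W) {y : F}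
    (hspan : ∀ z ∈ I0 h hn hm W, ∃ r : O, z = r • y) : IsK π m W⁻¹ y⁻¹ := by
  obtain ⟨r, a, b, ha, hb, hab⟩ := hinv
  have hπ : algebraMap O F π ≠ 0 := algebraMap_pi_ne_zero h.locPrin
  choose j₀ hj₀ using fun i => exists_pow_mul_mem_I0 h hn hm (ha i)
  set j := ∑ i, j₀ i with hj
  have hle : ∀ i, j₀ i ≤ j := fun i =>
    Finset.single_le_sum (fun _ _ => Nat.zero_le _) (Finset.mem_univ i)
  choose o ho using fun i => hspan _ (hj₀ i j (hle i))
  have h1 : algebraMap O F π ^ j = y * ∑ i, o i • b i := by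
    calc algebraMap O F π ^ j = algebraMap O F π ^ j * ∑ i, a i * b i := by rw [hab, mul_one]
      _ = ∑ i, (algebraMap O F π ^ j * a i) * b i := by
          rw [Finset.mul_sum]; exact Finset.sum_congr rfl fun i _ => by ring
      _ = ∑ i, y * (o i • b i) := by
          refine Finset.sum_congr rfl fun i _ => ?_
          rw [ho i, Algebra.smul_def, Algebra.smul_def]; ring
      _ = y * ∑ i, o i • b i := by rw [Finset.mul_sum]
  have hy : y ≠ 0 := by
    rintro rfl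
    rw [zero_mul] at h1
    exact pow_ne_zero _ hπ h1
  have h2 : y⁻¹ = algebraMap O F π ^ (-(j : ℤ)) * ∑ i, o i • b i := by
    rw [zpow_neg, zpow_natCast, h1]
    have hs : ∑ i, o i • b i ≠ 0 := by
      intro hs
      rw [hs, mul_zero] at h1
      exact pow_ne_zero _ hπ h1
    field_simp
  rw [h2]
  exact (IsK.sum hn hm _ _ fun i _ => (hb i).smul (o i)).mul_inR (inR_pi_zpow _)

include h hn hm in
/-- **LocSmooth.** -/
theorem locSmooth [IsNoetherianRing O] (hW1 : VEq (Ideal.span {π}) π 0 W) (hinv : InvK π m W) :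
    ∃ (y : F) (e : Oˣ), y ≠ 0 ∧ y ^ m * W = algebraMap O F (e : O) := by
  have hP := h.locPrin
  have hW : W ≠ 0 := hW1.ne_zero hP
  have hfg := I0_fg h hn hm hW hinv
  obtain ⟨y, hy, hgen⟩ := exists_gen0 h hn hm hfg
  have hspan := eq_span0 h hn hm hfg hy hgen
  obtain ⟨y₀, hy₀, hy₀'⟩ := exists_unit0 h hn hm hinv
  have hy1 : VEq (Ideal.span {π}) π 0 y := by
    refine vEq_of_vGe_of_not hP hy.2 ?_
    intro hc
    obtain ⟨r, hr⟩ := hspan y₀ hy₀
    refine hy₀'.not_vGe hP (k' := 0 + 1) (by norm_num) ?_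
    rw [hr]
    exact hc.smul r
  have hy0 : y ≠ 0 := hy1.ne_zero hP
  have hu_inv : InR π (y ^ m * W)⁻¹ := by
    have := isK_inv_of_span0 h hn hm hinv hspan
    rw [IsK, inv_pow, ← mul_inv] at this
    exact this
  have hu1 : VEq (Ideal.span {π}) π 0 (y ^ m * W) := by
    have := (hy1.pow hP m).mul hP hW1
    simpa using this
  obtain ⟨e, he⟩ := h.sat_unit hy.1 hu_inv hu1
  exact ⟨y, e, hy0, he.symm⟩

end Fermat.Agent.S44.Loc
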