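import Mathlib

/-!
# S44 / Loc / Val : elementwise valuation calculus at a locally principal prime.      (Mathlib only)

`O` a domain, `F = Frac O`, `ι = algebraMap O F`, `P` a prime ideal of `O` which is locally generated by `π ≠ 0`
(`LocPrin P π`; so `O_P` is a DVR with uniformiser `π` when `O` is noetherian).  No `Valuation` objects, no localisation:

* `VGe F P π k z` : `v_P(z) ≥ k`  :⟺ `∃ s ∉ P, ∃ o, ι s * z = ι π ^ k * ι o`      (`k : ℤ`, `zpow` in the field `F`);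
* `VEq F P π k z` : `v_P(z) = k`  :⟺ the same with `o ∉ P`.

TASKS  S44/Loc-ValA (`VGe` API), S44/Loc-ValB (`VEq` API), S44/Loc-ValC (`exists_vEq`, Krull).
All proofs are 3-15 lines: unfold, multiply the two witnesses, use `zpow_add₀ (hι π ≠ 0)`, `map_mul`, `IsFractionRing.injective O F`,
`hP.prime.mem_or_mem`, `hP.prime.mul_notMem`-style facts.  General tip: `have hπ : ι π ≠ 0 := by simpa using hP.ne_zero` via
`(map_ne_zero_iff _ (IsFractionRing.injective O F)).2 hP.ne_zero`.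
-/

set_option autoImplicit false
set_option linter.unusedSectionVars false

namespace Fermat.Agent.S44.Loc

variable {O : Type*} [CommRing O]

/-- `P` is a prime ideal, locally generated by `π ≠ 0`. -/
structure LocPrin (P : Ideal O) (π : O) : Prop where
  prime : P.IsPrime
  ne_zero : π ≠ 0
  mem : π ∈ P
  gen : ∀ o ∈ P, ∃ s, s ∉ P ∧ π ∣ s * o

variable {F : Type*} [Field F] [Algebra O F]

/-- `v_P(z) ≥ k`. -/
def VGe (P : Ideal O) (π : O) (k : ℤ) (z : F) : Prop :=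
  ∃ s o : O, s ∉ P ∧ algebraMap O F s * z = algebraMap O F π ^ k * algebraMap O F o

/-- `v_P(z) = k`. -/
def VEq (P : Ideal O) (π : O) (k : ℤ) (z : F) : Prop :=
  ∃ s o : O, s ∉ P ∧ o ∉ P ∧ algebraMap O F s * z = algebraMap O F π ^ k * algebraMap O F o

variable [IsDomain O] [IsFractionRing O F] {P : Ideal O} {π : O} {k k' : ℤ} {z z' : F}

/-! ### TASK S44/Loc-ValA -/

theorem LocPrin.one_notMem' (hP : LocPrin P π) : (1 : O) ∉ P :=
  (Ideal.ne_top_iff_one P).mp hP.prime.ne_top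

theorem LocPrin.mul_notMem' (hP : LocPrin P π) {a b : O} (ha : a ∉ P) (hb : b ∉ P) : a * b ∉ P :=
  fun h => (hP.prime.mem_or_mem h).elim ha hb

theorem algebraMap_pi_ne_zero (hP : LocPrin P π) : algebraMap O F π ≠ 0 :=
  (map_ne_zero_iff _ (IsFractionRing.injective O F)).2 hP.ne_zero

theorem vGe_zero (hP : LocPrin P π) (k : ℤ) : VGe P π k (0 : F) :=
  ⟨1, 0, hP.one_notMem', by simp⟩

theorem vGe_algebraMap (hP : LocPrin P π) (o : O) : VGe P π 0 (algebraMap O F o) :=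
  ⟨1, o, hP.one_notMem', by simp⟩

/-- `π ^ (k - k') * o` -/
theorem VGe.mono (hP : LocPrin P π) (h : VGe P π k z) (hk : k' ≤ k) : VGe P π k' z := by
  obtain ⟨s, o, hs, e⟩ := h
  obtain ⟨n, rfl⟩ : ∃ n : ℕ, k = k' + n := ⟨(k - k').toNat, by omega⟩
  refine ⟨s, π ^ n * o, hs, ?_⟩
  rw [e, zpow_add₀ (algebraMap_pi_ne_zero hP), zpow_natCast, map_mul, map_pow, mul_assoc]

theorem VGe.add (hP : LocPrin P π) (h : VGe P π k z) (h' : VGe P π k z') : VGe P π k (z + z') := by
  obtain ⟨s, o, hs, e⟩ := h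
  obtain ⟨s', o', hs', e'⟩ := h'
  refine ⟨s * s', s' * o + s * o', hP.mul_notMem' hs hs', ?_⟩
  have : algebraMap O F (s * s') * (z + z')
      = algebraMap O F s' * (algebraMap O F s * z) + algebraMap O F s * (algebraMap O F s' * z') := by
    rw [map_mul]; ring
  rw [this, e, e', map_add, map_mul, map_mul]
  ring

theorem VGe.neg (h : VGe P π k z) : VGe P π k (-z) := by
  obtain ⟨s, o, hs, e⟩ := h
  exact ⟨s, -o, hs, by rw [mul_neg, e, map_neg, mul_neg]⟩

theorem VGe.sub (hP : LocPrin P π) (h : VGe P π k z) (h' : VGe P π k z') : VGe P π k (z - z') := by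
  rw [sub_eq_add_neg]
  exact h.add hP h'.neg

theorem VGe.mul (hP : LocPrin P π) (h : VGe P π k z) (h' : VGe P π k' z') :
    VGe P π (k + k') (z * z') := by
  obtain ⟨s, o, hs, e⟩ := h
  obtain ⟨s', o', hs', e'⟩ := h'
  refine ⟨s * s', o * o', hP.mul_notMem' hs hs', ?_⟩
  have : algebraMap O F (s * s') * (z * z')
      = (algebraMap O F s * z) * (algebraMap O F s' * z') := by
    rw [map_mul]; ring
  rw [this, e, e', zpow_add₀ (algebraMap_pi_ne_zero hP), map_mul]
  ring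

theorem VGe.smul (h : VGe P π k z) (o : O) : VGe P π k (o • z) := by
  obtain ⟨s, o', hs, e⟩ := h
  refine ⟨s, o * o', hs, ?_⟩
  rw [Algebra.smul_def, mul_left_comm, e, map_mul]
  ring

theorem VGe.pow (hP : LocPrin P π) (h : VGe P π k z) (n : ℕ) : VGe P π (n * k) (z ^ n) := by
  induction n with
  | zero => exact ⟨1, 1, hP.one_notMem', by simp⟩
  | succ n ih =>
    have h1 := ih.mul hP h
    rw [← pow_succ] at h1
    have h2 : ((n + 1 : ℕ) : ℤ) * k = n * k + k := by push_cast; ring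
    rw [h2]
    exact h1

/-- uses `hP.gen`. -/
theorem vGe_one_of_mem (hP : LocPrin P π) {o : O} (ho : o ∈ P) : VGe P π 1 (algebraMap O F o) := by
  obtain ⟨s, hs, d, hd⟩ := hP.gen o ho
  exact ⟨s, d, hs, by rw [zpow_one, ← map_mul, ← map_mul, hd]⟩

/-- `s * o = π * o'` in `O`, `π ∈ P`, `s ∉ P`. -/
theorem mem_of_vGe_one (hP : LocPrin P π) {o : O} (h : VGe P π 1 (algebraMap O F o)) : o ∈ P := by
  obtain ⟨s, o', hs, e⟩ := h
  rw [zpow_one, ← map_mul, ← map_mul] at e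
  have e' := IsFractionRing.injective O F e
  have h1 : s * o ∈ P := by rw [e']; exact P.mul_mem_right _ hP.mem
  exact (hP.prime.mem_or_mem h1).resolve_left hs

theorem VGe.smul_of_mem (hP : LocPrin P π) (h : VGe P π k z) {o : O} (ho : o ∈ P) :
    VGe P π (k + 1) (o • z) := by
  rw [Algebra.smul_def, add_comm]
  exact (vGe_one_of_mem hP ho).mul hP h

theorem vGe_pi_zpow_mul_iff (hP : LocPrin P π) (j : ℤ) :
    VGe P π (k + j) (algebraMap O F π ^ j * z) ↔ VGe P π k z := by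
  have hπ : algebraMap O F π ≠ 0 := algebraMap_pi_ne_zero hP
  have hj : algebraMap O F π ^ j ≠ 0 := zpow_ne_zero _ hπ
  constructor
  · rintro ⟨s, o, hs, e⟩
    refine ⟨s, o, hs, ?_⟩
    apply mul_left_cancel₀ hj
    rw [mul_left_comm, e, zpow_add₀ hπ]
    ring
  · rintro ⟨s, o, hs, e⟩
    refine ⟨s, o, hs, ?_⟩
    rw [mul_left_comm, e, zpow_add₀ hπ]
    ring

/-! ### TASK S44/Loc-ValB -/

theorem VEq.vGe (h : VEq P π k z) : VGe P π k z := by
  obtain ⟨s, o, hs, -, e⟩ := h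
  exact ⟨s, o, hs, e⟩

theorem VEq.ne_zero (hP : LocPrin P π) (h : VEq P π k z) : z ≠ 0 := by
  rintro rfl
  obtain ⟨s, o, hs, ho, e⟩ := h
  rw [mul_zero] at e
  have h1 : algebraMap O F o = 0 :=
    (mul_eq_zero.mp e.symm).resolve_left (zpow_ne_zero _ (algebraMap_pi_ne_zero hP))
  have h2 : o = 0 := (map_eq_zero_iff _ (IsFractionRing.injective O F)).mp h1
  exact ho (h2 ▸ P.zero_mem)

/-- `s' * π ^ k * o = s * π ^ k' * o'` ⟹ `s' * o = s * π ^ (k' - k) * o' ∈ P`. -/
theorem VEq.not_vGe (hP : LocPrin P π) (h : VEq P π k z) (hk : k < k') : ¬ VGe P π k' z := by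
  rintro ⟨s', o', hs', e'⟩
  obtain ⟨s, o, hs, ho, e⟩ := h
  have hπ : algebraMap O F π ≠ 0 := algebraMap_pi_ne_zero hP
  obtain ⟨n, rfl⟩ : ∃ n : ℕ, k' = k + (n + 1 : ℕ) := ⟨(k' - k - 1).toNat, by push_cast; omega⟩
  have h1 : algebraMap O F π ^ k * algebraMap O F (s' * o)
      = algebraMap O F π ^ k * algebraMap O F (s * (π ^ (n + 1) * o')) := by
    have a1 : algebraMap O F π ^ k * algebraMap O F (s' * o)
        = algebraMap O F s' * (algebraMap O F s * z) := by rw [e, map_mul]; ring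
    have a2 : algebraMap O F π ^ k * algebraMap O F (s * (π ^ (n + 1) * o'))
        = algebraMap O F s * (algebraMap O F s' * z) := by
      rw [e', zpow_add₀ hπ, zpow_natCast, map_mul, map_mul, map_pow]; ring
    rw [a1, a2]; ring
  have h2 := IsFractionRing.injective O F (mul_left_cancel₀ (zpow_ne_zero _ hπ) h1)
  have h3 : s' * o ∈ P := by
    rw [h2, pow_succ]
    exact P.mul_mem_left _ (P.mul_mem_right _ (P.mul_mem_left _ hP.mem))
  exact hP.mul_notMem' hs' ho h3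

theorem VEq.unique (hP : LocPrin P π) (h : VEq P π k z) (h' : VEq P π k' z) : k = k' := by
  rcases lt_trichotomy k k' with hlt | heq | hgt
  · exact absurd h'.vGe (h.not_vGe hP hlt)
  · exact heq
  · exact absurd h.vGe (h'.not_vGe hP hgt)

theorem vEq_of_notMem (hP : LocPrin P π) {o : O} (ho : o ∉ P) : VEq P π 0 (algebraMap O F o) :=
  ⟨1, o, hP.one_notMem', ho, by simp⟩

theorem vEq_pi_zpow (hP : LocPrin P π) (j : ℤ) : VEq P π j (algebraMap O F π ^ j : F) :=
  ⟨1, 1, hP.one_notMem', hP.one_notMem', by simp⟩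

theorem VEq.mul (hP : LocPrin P π) (h : VEq P π k z) (h' : VEq P π k' z') :
    VEq P π (k + k') (z * z') := by
  obtain ⟨s, o, hs, ho, e⟩ := h
  obtain ⟨s', o', hs', ho', e'⟩ := h'
  refine ⟨s * s', o * o', hP.mul_notMem' hs hs', hP.mul_notMem' ho ho', ?_⟩
  have : algebraMap O F (s * s') * (z * z')
      = (algebraMap O F s * z) * (algebraMap O F s' * z') := by
    rw [map_mul]; ring
  rw [this, e, e', zpow_add₀ (algebraMap_pi_ne_zero hP), map_mul]
  ring

theorem VEq.inv (hP : LocPrin P π) (h : VEq P π k z) : VEq P π (-k) z⁻¹ := by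
  have hz : z ≠ 0 := h.ne_zero hP
  obtain ⟨s, o, hs, ho, e⟩ := h
  have hπ : algebraMap O F π ^ k ≠ 0 := zpow_ne_zero _ (algebraMap_pi_ne_zero hP)
  refine ⟨o, s, ho, hs, ?_⟩
  rw [zpow_neg]
  have h1 : algebraMap O F o = (algebraMap O F π ^ k)⁻¹ * (algebraMap O F s * z) := by
    rw [e, inv_mul_cancel_left₀ hπ]
  rw [h1, mul_assoc, mul_assoc, mul_inv_cancel₀ hz, mul_one]

theorem VEq.pow (hP : LocPrin P π) (h : VEq P π k z) (n : ℕ) : VEq P π (n * k) (z ^ n) := by
  induction n with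
  | zero => exact ⟨1, 1, hP.one_notMem', hP.one_notMem', by simp⟩
  | succ n ih =>
    have h1 := ih.mul hP h
    rw [← pow_succ] at h1
    have h2 : ((n + 1 : ℕ) : ℤ) * k = n * k + k := by push_cast; ring
    rw [h2]
    exact h1

theorem VEq.zpow (hP : LocPrin P π) (h : VEq P π k z) (n : ℤ) : VEq P π (n * k) (z ^ n) := by
  obtain ⟨m, rfl | rfl⟩ := n.eq_nat_or_neg
  · rw [zpow_natCast]
    exact h.pow hP m
  · rw [zpow_neg, zpow_natCast, neg_mul]
    exact (h.pow hP m).inv hP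

/-- if `o ∈ P` use `hP.gen`. -/
theorem vEq_of_vGe_of_not (hP : LocPrin P π) (h : VGe P π k z) (h' : ¬ VGe P π (k + 1) z) :
    VEq P π k z := by
  obtain ⟨s, o, hs, e⟩ := h
  by_cases ho : o ∈ P
  · exfalso
    apply h'
    obtain ⟨s', hs', d, hd⟩ := hP.gen o ho
    refine ⟨s' * s, d, hP.mul_notMem' hs' hs, ?_⟩
    rw [map_mul, mul_assoc, e, mul_left_comm, ← map_mul, hd, map_mul,
      zpow_add₀ (algebraMap_pi_ne_zero hP), zpow_one, mul_assoc]
  · exact ⟨s, o, hs, ho, e⟩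

/-- `v(z) = 0`, `v(z') ≥ 1` ⟹ `v(z + z') = 0`. -/
theorem VEq.add_of_vGe (hP : LocPrin P π) (h : VEq P π k z) (h' : VGe P π (k + 1) z') :
    VEq P π k (z + z') := by
  refine vEq_of_vGe_of_not hP (h.vGe.add hP (h'.mono hP (by omega))) fun h2 => ?_
  have h3 := h2.sub hP h'
  rw [add_sub_cancel_right] at h3
  exact h.not_vGe hP (by omega) h3

/-! ### TASK S44/Loc-ValC

`exists_vEq_algebraMap`: for `c ≠ 0` in the noetherian domain `O` there are `e : ℕ`, `s c' ∉ P` with `s * c = π ^ e * c'`.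
PROOF (Krull, elementwise).  Suppose not.  Then by induction on `e`: `∀ e, ∃ s ∉ P, π ^ e ∣ s * c` (if `s * c = π ^ e * c'` then
`c' ∈ P` by assumption, `hP.gen` gives `s' * c' = π * c''`).  The ideals `I e := {x | ∃ s ∉ P, c ∣ s * π ^ e * x}` form an ascending chain,
so `I n = I (n + 1)` for some `n`.  With `s₁ * c = π ^ (n + 1) * c₁`: `c₁ ∈ I (n + 1) = I n`, i.e. `s * π ^ n * c₁ = c * y`; multiplying by `π`:
`s * s₁ * c = π * y * c`, so `s * s₁ = π * y ∈ P`, a contradiction.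
`exists_vEq`: `z = ι a / ι c` (`IsFractionRing.div_surjective`), combine with `VEq.mul`, `VEq.inv`.
-/

/-- the ascending chain of ideals `{x | ∃ s ∉ P, c ∣ s * π ^ e * x}`. -/
def krullChain (hP : LocPrin P π) (c : O) (e : ℕ) : Ideal O where
  carrier := {x | ∃ s, s ∉ P ∧ c ∣ s * π ^ e * x}
  add_mem' := by
    rintro x y ⟨s, hs, h⟩ ⟨s', hs', h'⟩
    refine ⟨s * s', hP.mul_notMem' hs hs', ?_⟩
    have : s * s' * π ^ e * (x + y) = s' * (s * π ^ e * x) + s * (s' * π ^ e * y) := by ring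
    rw [this]
    exact dvd_add (Dvd.dvd.mul_left h _) (Dvd.dvd.mul_left h' _)
  zero_mem' := ⟨1, hP.one_notMem', by simp⟩
  smul_mem' := by
    rintro a x ⟨s, hs, h⟩
    refine ⟨s, hs, ?_⟩
    have : s * π ^ e * (a • x) = a * (s * π ^ e * x) := by rw [smul_eq_mul]; ring
    rw [this]
    exact Dvd.dvd.mul_left h _

theorem exists_vEq_algebraMap [IsNoetherianRing O] (hP : LocPrin P π) {c : O} (hc : c ≠ 0) :
    ∃ (e : ℕ) (s c' : O), s ∉ P ∧ c' ∉ P ∧ s * c = π ^ e * c' := by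
  by_contra hcon
  push Not at hcon
  have hA : ∀ e : ℕ, ∃ s c' : O, s ∉ P ∧ s * c = π ^ e * c' := by
    intro e
    induction e with
    | zero => exact ⟨1, c, hP.one_notMem', by simp⟩
    | succ e ih =>
      obtain ⟨s, c', hs, h⟩ := ih
      have hc' : c' ∈ P := by
        by_contra hc'
        exact hcon e s c' hs hc' h
      obtain ⟨s', hs', d, hd⟩ := hP.gen c' hc'
      refine ⟨s' * s, d, hP.mul_notMem' hs' hs, ?_⟩
      rw [mul_assoc, h, mul_left_comm, hd, pow_succ, mul_assoc]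
  let f : ℕ →o Ideal O :=
    { toFun := krullChain hP c
      monotone' := by
        apply monotone_nat_of_le_succ
        rintro e x ⟨s, hs, h⟩
        refine ⟨s, hs, ?_⟩
        have : s * π ^ (e + 1) * x = π * (s * π ^ e * x) := by ring
        rw [this]
        exact Dvd.dvd.mul_left h _ }
  obtain ⟨n, hn⟩ := monotone_stabilizes_iff_noetherian.mpr (inferInstance : IsNoetherian O O) f
  obtain ⟨s₁, c₁, hs₁, h₁⟩ := hA (n + 1)
  have hmem : c₁ ∈ f (n + 1) := ⟨1, hP.one_notMem', ⟨s₁, by rw [one_mul, ← h₁, mul_comm]⟩⟩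
  rw [← hn (n + 1) (Nat.le_succ n)] at hmem
  obtain ⟨s, hs, y, hy⟩ := hmem
  have h2 : c * (s * s₁) = c * (π * y) := by
    calc c * (s * s₁) = s * (s₁ * c) := by ring
      _ = π * (s * π ^ n * c₁) := by rw [h₁]; ring
      _ = c * (π * y) := by rw [hy]; ring
  have h3 := mul_left_cancel₀ hc h2
  exact hP.mul_notMem' hs hs₁ (h3 ▸ P.mul_mem_right _ hP.mem)

theorem exists_vEq [IsNoetherianRing O] (hP : LocPrin P π) (hz : z ≠ 0) : ∃ k : ℤ, VEq P π k z := by
  obtain ⟨a, b, hb, rfl⟩ := IsFractionRing.div_surjective (A := O) z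
  have hb0 : b ≠ 0 := nonZeroDivisors.ne_zero hb
  have ha0 : a ≠ 0 := by
    rintro rfl
    simp at hz
  have key : ∀ {c : O}, c ≠ 0 → ∃ k : ℤ, VEq P π k (algebraMap O F c) := by
    intro c hc
    obtain ⟨e, s, c', hs, hc', h⟩ := exists_vEq_algebraMap hP hc
    exact ⟨e, s, c', hs, hc', by rw [zpow_natCast, ← map_pow, ← map_mul, ← map_mul, h]⟩
  obtain ⟨k₁, h₁⟩ := key ha0
  obtain ⟨k₂, h₂⟩ := key hb0
  exact ⟨k₁ + -k₂, by rw [div_eq_mul_inv]; exact h₁.mul hP (h₂.inv hP)⟩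

end Fermat.Agent.S44.Loc
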